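/-
S56 / Euler / ArithS2 : `Ш²(G_Σ, J_N) = 0` when the set of places of `L = Fix N` over `Σ` is GOOD (`Cl_Σ(L)/p = 0`).

PROOF.  `𝒜 := arithDatum p S hpS`, `N = fixG ι`.
 1. `DivCl_eq_bot`: `DivCl p L T = (DivFin p L T).map mkQ`; for `f ∈ DivFin` extend `f` by zero to `Pl L` (finite support), `B.exists_ordp_eq hT`
    gives `ξ` with `ordp v ξ = f v` for `v ∉ T`, i.e. `f = divp p L T ξ ∈ range`, so `mkQ f = 0`.
 2. `B.n2 h hfin : finrank KInf ≤ finrank DivCl = 0` (`hfin`: `⊥` is finite dimensional; `finrank_bot`), `B.ShaU_le_KInf p (B.hasseHyp hp2) h.hS h.hω`,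
    so `B.ShaU S (mu p) N = ⊥` / has `finrank = 0` (`Submodule.finrank_mono`).
 3. `Datum.finrank_Sha2_Fun_le 𝒜.mu N hN` (S55/B/Trans/Sha.lean): `finrank Ш²(Fun μ (G/N)) ≤ finrank (𝒜.ShaU 𝒜.mu N)`; `arith_ShaU`; `arithDatum_mu`
    is NOT rfl: prove the statement for all `μ'` with `μ' = mu p` and `subst`, as in `arith_transHyp` (S55/B/Trans/Glue.lean).
    `Datum.s2`, `Datum.JU` unfold.
-/
import Fermat.Agent.S55.B.Trans.Glue
import Fermat.Agent.S55.B.Trans.Sha

set_option autoImplicit false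

noncomputable section

namespace Fermat.Agent.S56.Euler

open Fermat.Agent.S55 Fermat.Agent.S55.Places ExtCitation Module

variable {p : ℕ} [Fact p.Prime] {L : Type} [Field L] [NumberField L]

theorem DivCl_eq_bot {T : Set (G.Pl L)} (hT : G.IsGood p L T) : B.DivCl p L T = ⊥ := by
  classical
  rw [eq_bot_iff]
  rintro _ ⟨f, hf, rfl⟩
  rw [Submodule.mem_bot, Submodule.mkQ_apply, Submodule.Quotient.mk_eq_zero]
  set F : G.Pl L → ZMod p := fun v => if h : v ∉ T then f ⟨v, h⟩ else 0 with hFdef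
  have hF : (Function.support F).Finite := by
    have hf' : (Function.support f).Finite := hf
    refine (hf'.image Subtype.val).subset ?_
    intro v hv
    by_cases h : v ∉ T
    · refine ⟨⟨v, h⟩, ?_, rfl⟩
      have e : F v = f ⟨v, h⟩ := dif_pos h
      rw [Function.mem_support] at hv ⊢
      rwa [e] at hv
    · have e : F v = 0 := dif_neg h
      exact absurd e hv
  obtain ⟨ξ, hξ⟩ := B.exists_ordp_eq hT F hF
  refine ⟨ξ, ?_⟩
  funext v
  rw [B.divp_apply, hξ v.1 v.2]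
  exact dif_pos v.2

theorem s2_JU_eq_zero (hp2 : p ≠ 2) (S : Finset Nat.Primes) (hpS : pPrime p ∈ S) (ι : L →+* Qbar)
    (h : B.Setup p S ι) (hgood : G.IsGood p L (B.SK S ι)) :
    (arithDatum p S hpS).s2 ((arithDatum p S hpS).JU (G.fixG ι)) = 0 := by
  have hbot := DivCl_eq_bot (p := p) hgood
  have hfin : FiniteDimensional (ZMod p) ↥(B.DivCl p L (B.SK S ι)) := by
    rw [hbot]
    infer_instance
  obtain ⟨hfK, hle⟩ := B.n2 h hfin
  have h0 : finrank (ZMod p) ↥(B.DivCl p L (B.SK S ι)) = 0 := by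
    rw [hbot]
    exact finrank_bot _ _
  have hSha : B.ShaU S (mu p) (G.fixG ι) ≤ B.KInf S (mu p) (G.fixG ι) :=
    B.ShaU_le_KInf p (B.hasseHyp hp2) h.hS h.hω
  have hS0 : finrank (ZMod p) ↥(B.ShaU S (mu p) (G.fixG ι)) = 0 := by
    have := Submodule.finrank_mono hSha
    omega
  have hSfd : FiniteDimensional (ZMod p) ↥(B.ShaU S (mu p) (G.fixG ι)) :=
    Submodule.finiteDimensional_of_le hSha
  have key : ∀ μ' : Representation (ZMod p) GQ (ZMod p), μ' = mu p → Smooth (LS S) μ' →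
      finrank (ZMod p) ↥((arithDatum p S hpS).Sha2 (Fun μ' (GQ ⧸ G.fixG ι))) = 0 := by
    rintro _ rfl hsm
    have : FiniteDimensional (ZMod p) ↥((arithDatum p S hpS).ShaU (mu p) (G.fixG ι)) := by
      rw [arith_ShaU]
      exact hSfd
    have h1 := (arithDatum p S hpS).finrank_Sha2_Fun_le (mu p) (G.fixG ι) h.hS
    rw [arith_ShaU, hS0] at h1
    exact Nat.le_zero.mp h1
  have h2 := key _ (arithDatum_mu p S hpS) (arithDatum p S hpS).smooth_mu
  unfold Datum.s2
  exact_mod_cast h2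

end Fermat.Agent.S56.Euler

end
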