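/-
S56 / Euler / Defs : COMMON OBJECTS of (EC1) (owner helper98).  sorry-free, FROZEN.

* `dQ Q T`        : `dim ker Q(T)`  (operator calculus; `Q` a divisor of `X^n - 1`, `p ∤ n`)
* `rt p N X t`    : right translation `(R_t φ)(w) = φ(w t)` on `Fun(G/N, X)`, `N` normal.  Commutes with the left
                    action of `G` on `Fun ρ (G/N)` for every `ρ`.
* `kerQ ρ T hT Q` : the representation on `ker Q(T)`, `T` an equivariant endomorphism
* `onH0 D T hT`   : the operator induced by an equivariant `T` on the `D`-invariants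
* `KPmap p s`     : the operator induced on `L^×/p` by a ring automorphism `s` of `L`
-/
import Fermat.Agent.S55.Coh.All
import Fermat.Agent.S55.G.Defs

set_option autoImplicit false

noncomputable section

namespace Fermat.Agent.S56.Euler

open Fermat.Agent.S55 Module Polynomial

/-- `dim ker Q(T)`. -/
def dQ {F V : Type} [Field F] [AddCommGroup V] [Module F V] (Q : F[X]) (T : V →ₗ[F] V) : ℕ :=
  finrank F ↥(LinearMap.ker (aeval T Q))

section rep

variable {k : Type} [CommRing k] {G : Type} [Group G] {X : Type} [AddCommGroup X] [Module k X]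

/-- polynomials in an equivariant endomorphism are equivariant. -/
theorem aeval_comm {ρ : Representation k G X} (T : X →ₗ[k] X)
    (hT : ∀ g x, T (ρ g x) = ρ g (T x)) (Q : k[X]) (g : G) (x : X) :
    aeval T Q (ρ g x) = ρ g (aeval T Q x) := by
  have h : Commute (ρ g) T := by
    ext y
    exact (hT g y).symm
  have h2 : Commute (ρ g) (aeval T Q) := by
    induction Q using Polynomial.induction_on' with
    | add P Q hP hQ => rw [map_add]; exact hP.add_right hQ
    | monomial n a =>
      rw [aeval_monomial]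
      exact (Algebra.commute_algebraMap_right a (ρ g)).mul_right (h.pow_right n)
  exact (LinearMap.congr_fun h2.eq x).symm

/-- the representation on `ker Q(T)`. -/
abbrev kerQ (ρ : Representation k G X) (T : X →ₗ[k] X) (hT : ∀ g x, T (ρ g x) = ρ g (T x))
    (Q : k[X]) : Representation k G ↥(LinearMap.ker (aeval T Q)) :=
  kerRep (ρB := ρ) (ρC := ρ) (aeval T Q) (aeval_comm T hT Q)

/-- the operator induced by an equivariant endomorphism on the invariants of a subgroup. -/
def onH0 {ρ : Representation k G X} (D : Subgroup G) (T : X →ₗ[k] X)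
    (hT : ∀ g x, T (ρ g x) = ρ g (T x)) : ↥(H0 (rsub ρ D)) →ₗ[k] ↥(H0 (rsub ρ D)) :=
  T.restrict (p := H0 (rsub ρ D)) (q := H0 (rsub ρ D)) (fun x hx d => by
    have := hx d
    simp only [MonoidHom.comp_apply, Subgroup.coe_subtype] at this ⊢
    rw [← hT, this])

@[simp] theorem onH0_coe {ρ : Representation k G X} (D : Subgroup G) (T : X →ₗ[k] X)
    (hT : ∀ g x, T (ρ g x) = ρ g (T x)) (x : ↥(H0 (rsub ρ D))) :
    ((onH0 D T hT x : ↥(H0 (rsub ρ D))) : X) = T (x : X) := rfl

variable (k X) in
/-- right translation by `t` on functions on `G/N`. -/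
def rt (N : Subgroup G) [N.Normal] (t : G) : (G ⧸ N → X) →ₗ[k] (G ⧸ N → X) :=
  LinearMap.funLeft k X (fun w : G ⧸ N => w * (t : G ⧸ N))

@[simp] theorem rt_apply (N : Subgroup G) [N.Normal] (t : G) (φ : G ⧸ N → X) (w : G ⧸ N) :
    rt k X N t φ w = φ (w * (t : G ⧸ N)) := rfl

theorem smul_mul_coe (N : Subgroup G) [N.Normal] (g t : G) (w : G ⧸ N) :
    g • (w * (t : G ⧸ N)) = (g • w) * (t : G ⧸ N) := by
  induction w using QuotientGroup.induction_on with
  | H x => exact congrArg _ (mul_assoc g x t).symm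

/-- `R_t` commutes with the action of `G` on `Fun ρ (G/N)`. -/
theorem rt_comm (ρ : Representation k G X) (N : Subgroup G) [N.Normal] (t : G) (g : G)
    (φ : G ⧸ N → X) : rt k X N t (Fun ρ (G ⧸ N) g φ) = Fun ρ (G ⧸ N) g (rt k X N t φ) := by
  ext w
  simp only [rt_apply, Fun_apply, smul_mul_coe]

theorem rt_mul (N : Subgroup G) [N.Normal] (s t : G) :
    rt k X N (s * t) = rt k X N s * rt k X N t := by
  ext φ w
  simp [mul_assoc]

theorem rt_of_mem (N : Subgroup G) [N.Normal] {t : G} (ht : t ∈ N) : rt k X N t = 1 := by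
  ext φ w
  simp [(QuotientGroup.eq_one_iff t).2 ht]

theorem rt_pow (N : Subgroup G) [N.Normal] (t : G) (n : ℕ) :
    rt k X N (t ^ n) = rt k X N t ^ n := by
  induction n with
  | zero => rw [pow_zero, pow_zero]; exact rt_of_mem N N.one_mem
  | succ n ih => rw [pow_succ, pow_succ, rt_mul, ih]

theorem rt_pow_eq_one (N : Subgroup G) [N.Normal] {t : G} {n : ℕ} (ht : t ^ n ∈ N) :
    rt k X N t ^ n = 1 := by
  rw [← rt_pow, rt_of_mem N ht]

end rep

section field

variable (p : ℕ) {L : Type} [Field L]

/-- the operator induced on `L^×/p` by an automorphism of `L`. -/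
def KPmap (s : L ≃+* L) : G.KP p L →ₗ[ZMod p] G.KP p L :=
  AddMonoidHom.toZModLinearMap p
    (show G.KP p L →+ G.KP p L from MonoidHom.toAdditive
      (QuotientGroup.map (powMonoidHom p : Lˣ →* Lˣ).range (powMonoidHom p : Lˣ →* Lˣ).range
        (Units.map (s : L →* L))
        (by rintro _ ⟨x, rfl⟩; exact ⟨Units.map (s : L →* L) x, by simp⟩)))

@[simp] theorem KPmap_cls (s : L ≃+* L) (x : Lˣ) :
    KPmap p s (G.cls p x) = G.cls p (Units.map (s : L →* L) x) := rfl

end field

end Fermat.Agent.S56.Euler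

end
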