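/-
S56 / Euler / Aut : the automorphism of `L` induced by `g ∈ GQ` when `fixG ι` is normal; it preserves the `Σ`-units.

PROOFS.
* `exists_aut`: for `x : L`, `g (ι x) ∈ Places.Fix (fixG ι)`: for `n ∈ fixG ι`, `n (g (ι x)) = g ((g⁻¹ n g) (ι x)) = g (ι x)` (normality:
  `Subgroup.Normal.conj_mem`); `Fix_fixG`, `mem_rangeNF` (as in the proof of `B.kumK_injective`, S55/B/KumK.lean) give `y` with `ι y = g (ι x)`.
  `choose` for `g` and for `g⁻¹`; `ι` is injective (`RingHom.injective`), so the two maps are mutually inverse ring homomorphisms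
  (`RingEquiv.ofHomInv`-style or a direct structure).
* `aut_pow`: `ι (s^[n] x) = g^n (ι x) = ι x`.
* `KPmap_mem_EE`: enough (`G.mem_img`, `KPmap_cls`): `x ∈ (SK Sg ι).unit L ⟹ Units.map s x ∈ (SK Sg ι).unit L`, i.e. (`B.mem_unit_iff` / definition of `Set.unit`)
  `v.valuation (s x) = 1` for `v ∉ SK Sg ι`.  By `B.exists_isAt_of_not_mem_SK` (S55/B/Tau.lean) `v` is at `(q, g')` with `q ∉ Sg`:
  `nrmg q g' (ι y) = c ^ (- log (v.valuation y))`.  `nrmg q g' (ι (s x)) = nrm q (g'⁻¹ g (ι x)) = nrmg q (g⁻¹ g') (ι x)`.  By `G.exists_isAt' ι q (g⁻¹ g')` there is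
  a place `v'` at `(q, g⁻¹ g')`; `v' ∉ SK Sg ι` (a place lies over only one prime: look for the uniqueness lemma used in S55/B/Tau.lean / Count.lean,
  e.g. in the proof of `exists_isAt_of_not_mem_SK` or `ncard_SK`), so `v'.valuation x = 1`, `nrmg q (g⁻¹ g') (ι x) = c'^0 = 1`, hence
  `c ^ (- log (v.valuation (s x))) = 1` and `v.valuation (s x) = 1` (`0 < c < 1`).
  ALTERNATIVE: helper73's S56/Units (`Units.valuation_sigPl`, `Units.sigU_mem_unit`) + stability of `SK` under `sigPl`; use it if it is on main.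
-/
import Fermat.Agent.S56.Euler.Defs
import Fermat.Agent.S55.B.Num

set_option autoImplicit false

noncomputable section

namespace Fermat.Agent.S56.Euler

open Fermat.Agent.S55 Fermat.Agent.S55.Places ExtCitation Module

variable {p : ℕ} [Fact p.Prime] {L : Type} [Field L] [NumberField L] (ι : L →+* Qbar)

theorem exists_aut [(G.fixG ι).Normal] (g : GQ) : ∃ s : L ≃+* L, ∀ x, ι (s x) = g (ι x) := by
  have key : ∀ (g : GQ) (x : L), ∃ y : L, ι y = g (ι x) := by
    intro g x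
    have h1 : g (ι x) ∈ Places.Fix (G.fixG ι) := by
      rw [mem_Fix_iff]
      intro n hn
      have h2 : g⁻¹ * n * g ∈ G.fixG ι := by
        have := Subgroup.Normal.conj_mem (inferInstance : (G.fixG ι).Normal) n hn g⁻¹
        simpa using this
      have h3 : (g⁻¹ * n * g) (ι x) = ι x := h2 x
      have h4 : n (g (ι x)) = g ((g⁻¹ * n * g) (ι x)) := by
        simp only [AlgEquiv.mul_apply]
        rw [← AlgEquiv.mul_apply g g⁻¹, mul_inv_cancel, AlgEquiv.one_apply]
      rw [h4, h3]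
    rw [G.Fix_fixG] at h1
    exact (G.mem_rangeNF ι).1 h1
  choose f hf using key
  have hinj : Function.Injective ι := ι.injective
  refine ⟨{ toFun := f g, invFun := f g⁻¹, left_inv := ?_, right_inv := ?_, map_mul' := ?_,
            map_add' := ?_ }, hf g⟩
  · intro x
    apply hinj
    rw [hf, hf, ← AlgEquiv.mul_apply, inv_mul_cancel, AlgEquiv.one_apply]
  · intro x
    apply hinj
    rw [hf, hf, ← AlgEquiv.mul_apply, mul_inv_cancel, AlgEquiv.one_apply]
  · intro x y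
    apply hinj
    rw [hf, map_mul, map_mul, map_mul, hf, hf]
  · intro x y
    apply hinj
    rw [hf, map_add, map_add, map_add, hf, hf]

theorem KPmap_pow_eq_one (g : GQ) (s : L ≃+* L) (hs : ∀ x, ι (s x) = g (ι x)) (n : ℕ)
    (hn : g ^ n ∈ G.fixG ι) : (KPmap p s) ^ n = 1 := by
  have key : ∀ (k : ℕ) (x : Lˣ), ∃ y : Lˣ, ((KPmap p s) ^ k) (G.cls p x) = G.cls p y ∧
      ι (y : L) = (g ^ k) (ι (x : L)) := by
    intro k
    induction k with
    | zero => exact fun x => ⟨x, by simp, by simp⟩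
    | succ k ih =>
      intro x
      obtain ⟨y, hy1, hy2⟩ := ih x
      refine ⟨Units.map (s : L →* L) y, ?_, ?_⟩
      · rw [pow_succ', Module.End.mul_apply, hy1, KPmap_cls]
      · rw [pow_succ', AlgEquiv.mul_apply, ← hy2]
        exact hs y
  ext ξ
  obtain ⟨x, rfl⟩ := G.cls_surjective p ξ
  obtain ⟨y, hy1, hy2⟩ := key n x
  have h1 : (g ^ n) (ι (x : L)) = ι (x : L) := hn x
  rw [h1] at hy2
  have h2 : y = x := Units.ext (ι.injective hy2)
  rw [hy1, h2, Module.End.one_apply]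

theorem KPmap_mem_EE (Sg : Finset Nat.Primes) (g : GQ) (s : L ≃+* L)
    (hs : ∀ x, ι (s x) = g (ι x)) :
    ∀ ξ ∈ G.EE p L (B.SK Sg ι), KPmap p s ξ ∈ G.EE p L (B.SK Sg ι) := by
  intro ξ hξ
  obtain ⟨x, hx, rfl⟩ := (G.mem_img p).1 hξ
  rw [KPmap_cls]
  refine (G.mem_img p).2 ⟨_, ?_, rfl⟩
  rw [B.mem_unit_iff] at hx ⊢
  intro v hv
  obtain ⟨l, g', hl, hat⟩ := B.exists_isAt_of_not_mem_SK ι hv
  obtain ⟨v', hv', hat'⟩ := B.exists_not_mem_SK_isAt ι hl (g⁻¹ * g')
  refine (B.IsAt.nrmg_eq_one_iff hat _).1 ?_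
  have h1 := (B.IsAt.nrmg_eq_one_iff hat' x).2 (hx v' hv')
  rw [← h1]
  show G.nrmg l g' (ι (s (x : L))) = _
  rw [hs, G.nrmg_def, G.nrmg_def, mul_inv_rev, inv_inv, AlgEquiv.mul_apply]

end Fermat.Agent.S56.Euler

end
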