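/-
S56 / Euler / Base0 : (CYC)  `Base0 ⟹ Base`  for an abstract additive invariant (pure algebra; owner: helper56).

`Base0` : `e (ker Q(R_t) ⊆ Fun(G/N, 𝔽_p)) = 0` for all `t` with `t ^ m ∈ N`, `p ∤ m`, and all factorisations `Q * Qc = X ^ m - 1`.
`Base`  : `e (Fun ρ (G/(N⟨t⟩))) = 0` for all such `t` and all `ρ` trivial on `N`   (EA/Main.lean).

PROOF (no irreducible polynomials, no dimension counts).  Fix `t`, `m`; replace `m` by the order `m₀` of `t` in `G/N` (`m₀ ∣ m`, so `p ∤ m₀`).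
For `(Z, B)` an `𝔽_p`-space with an operator `B`, `B ^ m₀ = 1`:
      `W(Z,B) := {φ : G/N → Z | φ(w t) = B⁻¹ φ(w)}`   (`G` acts by left translation only; = `ker (T - 1)`, `T φ = B ∘ φ ∘ (· t)`).
 (a) `Fun ρ (G/U) ≅ W(Y, ρ t)`, `f ↦ (x N ↦ ρ(x)⁻¹ f(x U))`, `U = N ⊔ ⟨t⟩`.
 (b) `W` is exact in `(Z,B)`: `⟨t⟩` acts freely on `G/N` from the right, so `W(Z,B) ≅ Fun(representatives, Z)`.
 (c) for `z ∈ Z`: `Θ_z : I_N → W(Z,B)`, `ψ ↦ (w ↦ ∑_{j<m₀} ψ(w t^j) B^j z)` is equivariant, `range Θ_z = W(Z₀,B)`, `Z₀ = span {B^j z}`;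
     `ker Θ_z = ker Qc(R_{t⁻¹})` where `Q` = monic generator of the annihilator `{P | P(B) z = 0}` (`Q ∣ X^m₀ - 1`, `Q Qc = X^m₀ - 1`):
     multiplication by `X` on `∑_j ψ(w t^j) X^j mod X^m₀ - 1` is `R_{t⁻¹}`, and `P ∈ (Q) mod X^m₀-1 ⟺ Qc P ≡ 0`.
     So `e(W(Z₀)) = e(I_N) - e(ker Qc(R_{t⁻¹})) = 0 - 0` by `Base0` for `t⁻¹` (`I_N = ker (X^m₀ - 1)(R)`, `Q := X^m₀ - 1`, `Qc := 1`).
 (d) induction on `dim Z`: `e(W(Z)) = e(W(Z₀)) + e(W(Z/Z₀))`.

IMPLEMENTATION (helper56): Euler/Cyc/{Defs,Exact,FunIso,Reg,Stable}.lean; the regular pair is `(ZMod m → 𝔽_p, shift)`; (c) is replaced by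
`0 → K → (ZMod m → 𝔽_p) → Z₀ → 0` + `K = ker Q(S)` (Stable) + `W(ker Q(S)) ≅ ker Q(R_{t⁻¹})` (Reg).
-/
import Fermat.Agent.S56.Euler.Defs
import Fermat.Agent.S56.EA.Main
import Fermat.Agent.S56.Euler.Cyc.FunIso
import Fermat.Agent.S56.Euler.Cyc.Stable

set_option autoImplicit false

noncomputable section

namespace Fermat.Agent.S56.Euler

open Fermat.Agent.S55 Module Polynomial

variable {p : ℕ} [Fact p.Prime] {G : Type} [Group G] {N : Subgroup G}

/-- vanishing on the summands `ker Q(R_t)` of `Fun(G/N, 𝔽_p)`. -/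
def Base0 (a : EA.AddInv p G N) [N.Normal] : Prop :=
  ∀ (t : G) (m : ℕ), ¬ p ∣ m → t ^ m ∈ N → ∀ Q Qc : (ZMod p)[X], Q * Qc = X ^ m - 1 →
    a.e (kerQ (Fun (Representation.trivial (ZMod p) G (ZMod p)) (G ⧸ N))
      (rt (ZMod p) (ZMod p) N t) (rt_comm _ N t) Q) = 0

/-- `e (W(K, S|K)) = 0` for every `S`-stable subspace `K` of the regular pair. -/
theorem Base0.e_W_stable {a : EA.AddInv p G N} [N.Normal] [Finite (G ⧸ N)] (h : Base0 a) (t : G)
    {m : ℕ} [NeZero m] (hm : ¬ p ∣ m) (ht : t ^ m ∈ N)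
    (K : Submodule (ZMod p) (ZMod m → ZMod p)) (hK : ∀ c ∈ K, Cyc.shift p m c ∈ K) :
    a.e (Cyc.W N t ((Cyc.shift p m).restrict hK)) = 0 := by
  obtain ⟨Q, Qc, hQ, rfl⟩ := Cyc.exists_eq_ker K hK
  rw [Cyc.e_W_ker N t a ht Q hK]
  exact h t⁻¹ m hm (by rw [inv_pow]; exact N.inv_mem ht) Q Qc hQ

/-- `e (W(Z,B)) = 0` for all pairs `(Z,B)`, `B ^ m = 1`. -/
theorem Base0.e_W_eq_zero {a : EA.AddInv p G N} [N.Normal] [Finite (G ⧸ N)] (h : Base0 a) (t : G)
    {m : ℕ} (hm : ¬ p ∣ m) (ht : t ^ m ∈ N) :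
    ∀ (n : ℕ) {Z : Type} [AddCommGroup Z] [Module (ZMod p) Z] [FiniteDimensional (ZMod p) Z]
      (B : Z →ₗ[ZMod p] Z), B ^ m = 1 → finrank (ZMod p) Z ≤ n → a.e (Cyc.W N t B) = 0 := by
  haveI : NeZero m := ⟨fun h0 => hm (h0 ▸ dvd_zero p)⟩
  intro n
  induction n with
  | zero =>
    intro Z _ _ _ B _ hn
    haveI : Subsingleton Z := finrank_zero_iff.mp (Nat.le_zero.mp hn)
    haveI : Subsingleton ↥(LinearMap.ker (Cyc.TB N t B - 1)) :=
      ⟨fun x y => Subtype.ext (funext fun w => Subsingleton.elim _ _)⟩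
    exact a.e_of_subsingleton _
  | succ n ih =>
    intro Z _ _ _ B hB hn
    by_cases hZ : Subsingleton Z
    · haveI : Subsingleton ↥(LinearMap.ker (Cyc.TB N t B - 1)) :=
        ⟨fun x y => Subtype.ext (funext fun w => Subsingleton.elim _ _)⟩
      exact a.e_of_subsingleton _
    · rw [not_subsingleton_iff_nontrivial] at hZ
      obtain ⟨z, hz⟩ := exists_ne (0 : Z)
      set πz : (ZMod m → ZMod p) →ₗ[ZMod p] Z := Cyc.piz B z with hπz
      have hint : ∀ c, πz (Cyc.shift p m c) = B (πz c) := Cyc.piz_shift B hB z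
      -- the three stable subspaces
      have hK : ∀ c ∈ LinearMap.ker πz, Cyc.shift p m c ∈ LinearMap.ker πz := by
        intro c hc
        rw [LinearMap.mem_ker] at hc ⊢
        rw [hint, hc, map_zero]
      have hZ0 : ∀ x ∈ LinearMap.range πz, B x ∈ LinearMap.range πz := by
        rintro _ ⟨c, rfl⟩
        exact ⟨Cyc.shift p m c, hint c⟩
      have hZ0' : LinearMap.range πz ≤ (LinearMap.range πz).comap B := hZ0
      -- `0 → K → R → Z₀ → 0`
      have e1 := Cyc.e_W_add N t a hm ht ((Cyc.shift p m).restrict hK) (Cyc.shift p m)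
        (B.restrict hZ0) Cyc.shift_pow_eq_one (LinearMap.ker πz).subtype πz.rangeRestrict
        (fun _ => rfl) (fun c => Subtype.ext (hint c)) (LinearMap.ker πz).injective_subtype
        πz.surjective_rangeRestrict (by
          intro c
          constructor
          · intro hc
            exact ⟨⟨c, congrArg Subtype.val hc⟩, rfl⟩
          · rintro ⟨y, rfl⟩
            exact Subtype.ext y.2)
      -- `0 → Z₀ → Z → Z/Z₀ → 0`
      have e2 := Cyc.e_W_add N t a hm ht (B.restrict hZ0) B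
        ((LinearMap.range πz).mapQ (LinearMap.range πz) B hZ0') hB (LinearMap.range πz).subtype
        (LinearMap.range πz).mkQ (fun _ => rfl) (fun _ => rfl)
        (LinearMap.range πz).injective_subtype (LinearMap.range πz).mkQ_surjective (by
          intro x
          rw [Submodule.mkQ_apply, Submodule.Quotient.mk_eq_zero]
          simp)
      -- the regular pair and `K`
      have e3 : a.e (Cyc.W N t ((Cyc.shift p m).restrict hK)) = 0 :=
        h.e_W_stable t hm ht _ hK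
      have e4 : a.e (Cyc.W N t (Cyc.shift p m)) = 0 := by
        have e5 := Cyc.e_W_add N t a hm ht
          ((Cyc.shift p m).restrict (p := ⊤) (q := ⊤) (fun _ _ => Submodule.mem_top))
          (Cyc.shift p m) (0 : PUnit →ₗ[ZMod p] PUnit) Cyc.shift_pow_eq_one
          (⊤ : Submodule (ZMod p) (ZMod m → ZMod p)).subtype 0
          (fun _ => rfl) (fun _ => rfl) (Submodule.injective_subtype _)
          (fun _ => ⟨0, Subsingleton.elim _ _⟩) (by
            intro c
            exact ⟨fun _ => ⟨⟨c, Submodule.mem_top⟩, rfl⟩, fun _ => Subsingleton.elim _ _⟩)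
        haveI : Subsingleton ↥(LinearMap.ker (Cyc.TB N t (0 : PUnit →ₗ[ZMod p] PUnit) - 1)) :=
          ⟨fun x y => Subtype.ext (funext fun w => Subsingleton.elim _ _)⟩
        rw [e5, h.e_W_stable t hm ht ⊤ (fun _ _ => Submodule.mem_top), a.e_of_subsingleton,
          add_zero]
      -- the quotient has smaller dimension
      have hzmem : z ∈ LinearMap.range πz := ⟨_, Cyc.piz_single B z⟩
      have hpos : 0 < finrank (ZMod p) ↥(LinearMap.range πz) := by
        rw [finrank_pos_iff]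
        exact ⟨⟨⟨z, hzmem⟩, 0, fun h0 => hz (congrArg Subtype.val h0)⟩⟩
      have hdim := (LinearMap.range πz).finrank_quotient_add_finrank
      have e6 : a.e (Cyc.W N t ((LinearMap.range πz).mapQ (LinearMap.range πz) B hZ0')) = 0 := by
        refine ih _ ?_ (by omega)
        apply LinearMap.ext
        intro x
        obtain ⟨x, rfl⟩ := (LinearMap.range πz).mkQ_surjective x
        have hpow : ∀ j : ℕ, (((LinearMap.range πz).mapQ (LinearMap.range πz) B hZ0') ^ j)
            ((LinearMap.range πz).mkQ x) = (LinearMap.range πz).mkQ ((B ^ j) x) := by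
          intro j
          induction j with
          | zero => simp
          | succ j ihj =>
            rw [pow_succ', pow_succ', Module.End.mul_apply, ihj, Module.End.mul_apply]
            rfl
        rw [hpow, hB]
        rfl
      linarith

/-- **(CYC)**. -/
theorem Base0.base {a : EA.AddInv p G N} [N.Normal] [Finite (G ⧸ N)] (h : Base0 a) : a.Base := by
  intro t m hm ht Y _ _ _ ρ hρ
  rw [Cyc.e_Fun_eq_W N t a ρ hρ]
  refine h.e_W_eq_zero t hm ht _ (ρ t) ?_ le_rfl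
  rw [← map_pow, hρ _ ht]

end Fermat.Agent.S56.Euler

end
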