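/-
S56 / Euler / OC : OPERATOR CALCULUS.  Pure linear algebra over a field `F` (Mathlib + Euler/Defs only).

`dQ Q T = dim ker Q(T)`.   Standing situation: `T ^ n = 1`, `(n : F) ≠ 0`, `Q * Qc = X ^ n - 1`; then `Q`, `Qc` are coprime
(`X ^ n - 1` is separable) and `V = ker Q(T) ⊕ ker Qc(T)`.
-/
import Fermat.Agent.S56.Euler.Defs

set_option autoImplicit false

noncomputable section

namespace Fermat.Agent.S56.Euler

open Module Polynomial

variable {F : Type} [Field F] {V W : Type} [AddCommGroup V] [Module F V] [AddCommGroup W]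
  [Module F W]

/-- `Polynomial.separable_X_pow_sub_C 1 hn one_ne_zero`, `C 1 = 1`, then `Separable.isCoprime`
(`(f * g).Separable → IsCoprime f g`). -/
theorem isCoprime_of_mul_eq {n : ℕ} (hn : (n : F) ≠ 0) {Q Qc : F[X]} (hQ : Q * Qc = X ^ n - 1) :
    IsCoprime Q Qc := by
  have h := Polynomial.separable_X_pow_sub_C (1 : F) hn one_ne_zero
  rw [map_one, ← hQ] at h
  exact h.isCoprime

/-- an intertwiner intertwines all polynomials. (induction on `P`, as in `aeval_comm`; or
`Polynomial.induction_on'`.) -/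
theorem aeval_intertwine (T : V →ₗ[F] V) (T' : W →ₗ[F] W) (i : V →ₗ[F] W)
    (h : ∀ x, i (T x) = T' (i x)) (P : F[X]) (x : V) : i (aeval T P x) = aeval T' P (i x) := by
  have hpow : ∀ (n : ℕ) (y : V), i ((T ^ n) y) = (T' ^ n) (i y) := by
    intro n
    induction n with
    | zero => intro y; simp
    | succ n ih =>
      intro y
      rw [pow_succ, pow_succ, Module.End.mul_apply, Module.End.mul_apply, ih, h]
  induction P using Polynomial.induction_on' with
  | add P Q hP hQ => rw [map_add, map_add, LinearMap.add_apply, LinearMap.add_apply, map_add, hP, hQ]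
  | monomial n a =>
    rw [aeval_monomial, aeval_monomial, Module.End.mul_apply, Module.End.mul_apply,
      Module.algebraMap_end_apply, Module.algebraMap_end_apply, map_smul, hpow]

/-- conjugation invariance. (`e` restricts to an equivalence of the kernels: `LinearEquiv.ofSubmodules`/
`LinearEquiv.finrank_eq`; use `aeval_intertwine` for `e` and `e.symm`.) -/
theorem dQ_conj (Q : F[X]) (T : V →ₗ[F] V) (T' : W →ₗ[F] W) (e : V ≃ₗ[F] W)
    (h : ∀ x, e (T x) = T' (e x)) : dQ Q T = dQ Q T' := by
  unfold dQ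
  refine LinearEquiv.finrank_eq (e.ofSubmodules _ _ ?_)
  ext y
  rw [Submodule.mem_map, LinearMap.mem_ker]
  constructor
  · rintro ⟨x, hx, rfl⟩
    rw [LinearMap.mem_ker] at hx
    have := aeval_intertwine T T' (e : V →ₗ[F] W) h Q x
    rw [hx, map_zero] at this
    exact this.symm
  · intro hy
    refine ⟨e.symm y, ?_, e.apply_symm_apply y⟩
    rw [LinearMap.mem_ker]
    apply e.injective
    have := aeval_intertwine T T' (e : V →ₗ[F] W) h Q (e.symm y)
    rw [LinearEquiv.coe_coe, e.apply_symm_apply, hy] at this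
    rw [this, map_zero]

/-- monotone under injective intertwiners. (`i` maps `ker Q(T)` injectively to `ker Q(T')`:
`LinearMap.finrank_le_finrank_of_injective`.) -/
theorem dQ_le_of_injective [FiniteDimensional F W] (Q : F[X]) (T : V →ₗ[F] V) (T' : W →ₗ[F] W)
    (i : V →ₗ[F] W) (hi : Function.Injective i) (h : ∀ x, i (T x) = T' (i x)) :
    dQ Q T ≤ dQ Q T' := by
  unfold dQ
  have hmap : ∀ x ∈ LinearMap.ker (aeval T Q), i x ∈ LinearMap.ker (aeval T' Q) := by
    intro x hx
    rw [LinearMap.mem_ker] at hx ⊢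
    rw [← aeval_intertwine T T' i h Q x, hx, map_zero]
  refine LinearMap.finrank_le_finrank_of_injective (f := i.restrict hmap) ?_
  intro a b hab
  apply Subtype.ext
  apply hi
  exact congrArg Subtype.val hab

/-- `range Q(T) = ker Qc(T)` if `Q`, `Qc` are coprime and `(Q Qc)(T) = 0`.
(`⊆`: `Qc(T) Q(T) = 0`. `⊇`: `u Q + v Qc = 1`, so `x = Q(T) (u(T) x) + v(T) Qc(T) x = Q(T)(u(T) x)`.) -/
theorem range_aeval_eq_ker (T : V →ₗ[F] V) {Q Qc : F[X]} (hc : IsCoprime Q Qc)
    (h0 : aeval T (Q * Qc) = 0) : LinearMap.range (aeval T Q) = LinearMap.ker (aeval T Qc) := by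
  ext x
  rw [LinearMap.mem_range, LinearMap.mem_ker]
  constructor
  · rintro ⟨y, rfl⟩
    have h1 : aeval T (Qc * Q) = 0 := by rw [mul_comm]; exact h0
    rw [map_mul] at h1
    exact LinearMap.congr_fun h1 y
  · intro hx
    obtain ⟨u, v, huv⟩ := hc
    refine ⟨aeval T u x, ?_⟩
    have h1 : aeval T (Q * u + v * Qc) = 1 := by
      rw [mul_comm Q u, huv, map_one]
    rw [map_add, map_mul, map_mul] at h1
    have h2 := LinearMap.congr_fun h1 x
    rw [LinearMap.add_apply, Module.End.mul_apply, Module.End.mul_apply, hx, map_zero, add_zero,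
      Module.End.one_apply] at h2
    exact h2

open Classical in
/-- `δ Q a = 1` if `Q(a) = 0`, `0` otherwise. -/
def delta (Q : F[X]) (a : F) : ℕ := if Q.eval a = 0 then 1 else 0

/-- on a line on which `T` is the scalar `a`:  `Q(T) = Q(a)`.
(`aeval T Q x = Q.eval a • x` by induction on `Q`; so the kernel is `⊤` or `⊥`.) -/
theorem dQ_of_scalar (Q : F[X]) (T : V →ₗ[F] V) (a : F) (hV : finrank F V = 1)
    (hT : ∀ x, T x = a • x) : dQ Q T = delta Q a := by
  have hTa : T = algebraMap F (Module.End F V) a := by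
    ext x
    rw [hT, Module.algebraMap_end_apply]
  have hQ : aeval T Q = algebraMap F (Module.End F V) (Q.eval a) := by
    rw [hTa, aeval_algebraMap_apply, coe_aeval_eq_eval]
  unfold dQ delta
  split_ifs with h
  · have : LinearMap.ker (aeval T Q) = ⊤ := by
      rw [hQ, h, map_zero, LinearMap.ker_zero]
    rw [this, finrank_top, hV]
  · have : LinearMap.ker (aeval T Q) = ⊥ := by
      rw [LinearMap.ker_eq_bot']
      intro x hx
      rw [hQ, Module.algebraMap_end_apply] at hx
      exact (smul_eq_zero.mp hx).resolve_left h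
    rw [this, finrank_bot]

/-- finite products. (`ker` of a product map is the product of the kernels; `aeval` of `LinearMap.pi`-diagonal maps is
computed componentwise by `aeval_intertwine` applied to the projections; `Module.finrank_pi_fintype`.) -/
theorem dQ_pi {ι : Type} [Fintype ι] {Vs : ι → Type} [∀ i, AddCommGroup (Vs i)]
    [∀ i, Module F (Vs i)] [∀ i, FiniteDimensional F (Vs i)] (Q : F[X])
    (Ts : ∀ i, Vs i →ₗ[F] Vs i) (T : (∀ i, Vs i) →ₗ[F] (∀ i, Vs i))
    (hT : ∀ x i, T x i = Ts i (x i)) : dQ Q T = ∑ i, dQ Q (Ts i) := by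
  unfold dQ
  have hcomp : ∀ x i, aeval T Q x i = aeval (Ts i) Q (x i) := fun x i =>
    aeval_intertwine T (Ts i) (LinearMap.proj i) (fun y => hT y i) Q x
  rw [← Module.finrank_pi_fintype F]
  refine LinearEquiv.finrank_eq
    { toFun := fun x i => ⟨x.1 i, by
        rw [LinearMap.mem_ker, ← hcomp, LinearMap.mem_ker.mp x.2]; rfl⟩
      map_add' := fun x y => rfl
      map_smul' := fun c x => rfl
      invFun := fun y => ⟨fun i => (y i).1, by
        rw [LinearMap.mem_ker]
        funext i
        rw [hcomp, LinearMap.mem_ker.mp (y i).2]; rfl⟩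
      left_inv := fun x => rfl
      right_inv := fun y => rfl }

end Fermat.Agent.S56.Euler

end
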