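/-
S56 / Euler / Dual : the dual partner of `ker Q(R_t) ⊆ I_N` is `ker Q(R_{t⁻¹}) ⊆ J_N`.

`I_N = 𝒜.IU N = Fun triv (G/N)`, `J_N = 𝒜.JU N = Fun μ (G/N)`, pairing `β(ψ, φ) = ∑_w ψ(w) φ(w)` (`ψ ∈ J_N`, `φ ∈ I_N`).

PROOFS.
* `chi_dualT_eq_of_dualPair`: `e := d.β.toPerfPair : Y ≃ₗ Dual X` (`haveI := d.perf`; `LinearMap.toPerfPair_apply`), equivariance
  `e (σ g y) = dualT ρ g (e y)`: evaluate at `x`: `β (σ g y) x = ω g * β y (ρ g⁻¹ x)` is `DualPair.equi'`;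
  `dualT ρ g φ x = ω g • φ (ρ g⁻¹ x)` (`Representation.twist_apply_apply`, `Representation.dual_apply`,
  `Module.Dual.transpose_apply`, as in `DualPair.canon`).  Then `𝒜.chi_congr e he` (B/Trans/Iso.lean).
* `exists_dualPair_kerQ`: `A := R_t`, `A' := R_{t⁻¹}`.
   (1) `β(A' ψ, φ) = β(ψ, A φ)`: reindex the sum by the bijection `w ↦ w * t` (`Equiv.mulRight`, `Equiv.sum_comp`).
       Hence `β(P(A') ψ, φ) = β(ψ, P(A) φ)` for all polynomials `P` (`Polynomial.induction_on'`).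
   (2) equivariance: `∑_w (ω g * ψ(g⁻¹ w)) * φ(g⁻¹ w) = ω g * ∑_w ψ(w) φ(w)` (`MulAction.toPerm g⁻¹`, `Equiv.sum_comp`);
       `𝒜.mu g x = ω g * x` (`Datum.mu`, `Representation.twist_apply_apply`), `Fun_apply`.
   (3) the full pairing is nondegenerate (test against `Pi.single w 1`).
   (4) `u Q + v Qc = 1`. `ψ ∈ ker Q(A')` orthogonal to `ker Q(A)`: for every `φ`, `φ = (uQ)(A) φ + (vQc)(A) φ`, the second term is in
       `ker Q(A)` (by `h0`), `β(ψ, (uQ)(A) φ) = β((uQ)(A') ψ, φ) = 0`. So `ψ = 0` by (3). Symmetrically on the other side (`h0'`).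
   `DualPair.ofNondeg` (needs `FiniteDimensional` of the first space: a submodule of `G/N → ZMod p`, `Finite (G/N)`).
-/
import Fermat.Agent.S56.Euler.OC
import Fermat.Agent.S55.B.Trans.Iso
import Fermat.Agent.S55.D.Main

set_option autoImplicit false

noncomputable section

namespace Fermat.Agent.S56.Euler

open Fermat.Agent.S55 Module Polynomial

variable {p : ℕ} [Fact p.Prime] (𝒜 : Datum p)

theorem chi_dualT_eq_of_dualPair {X Y : Type} [AddCommGroup X] [Module (ZMod p) X]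
    [AddCommGroup Y] [Module (ZMod p) Y] {ρ : Representation (ZMod p) 𝒜.G X}
    {σ : Representation (ZMod p) 𝒜.G Y} (d : DualPair 𝒜.ω σ ρ) :
    𝒜.chi (𝒜.dualT ρ) = 𝒜.chi σ := by
  have := d.perf
  refine (𝒜.chi_congr (ρ := σ) (σ := 𝒜.dualT ρ) d.β.toPerfPair ?_).symm
  intro g y
  ext x
  rw [LinearMap.toPerfPair_apply, d.equi' g y x]
  simp [Representation.twist_apply_apply, Representation.dual_apply, Module.Dual.transpose_apply]

theorem Dual_adjoint_aeval {F V W : Type} [Field F] [AddCommGroup V] [Module F V]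
    [AddCommGroup W] [Module F W] (B : V →ₗ[F] W →ₗ[F] F) (S : V →ₗ[F] V) (T : W →ₗ[F] W)
    (h : ∀ x y, B (S x) y = B x (T y)) (P : F[X]) (x : V) (y : W) :
    B (aeval S P x) y = B x (aeval T P y) := by
  have hpow : ∀ (n : ℕ) (x : V) (y : W), B ((S ^ n) x) y = B x ((T ^ n) y) := by
    intro n
    induction n with
    | zero => intro x y; simp
    | succ n ih =>
      intro x y
      rw [pow_succ, pow_succ', Module.End.mul_apply, Module.End.mul_apply, ih, h]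
  induction P using Polynomial.induction_on' with
  | add P Q hP hQ =>
    rw [map_add, map_add, LinearMap.add_apply, LinearMap.add_apply, map_add, map_add,
      LinearMap.add_apply, hP, hQ]
  | monomial n a =>
    rw [aeval_monomial, aeval_monomial, Module.End.mul_apply, Module.End.mul_apply,
      Module.algebraMap_end_apply, Module.algebraMap_end_apply, map_smul, map_smul,
      LinearMap.smul_apply, hpow]

theorem Dual_nondeg_aux {F V W : Type} [Field F] [AddCommGroup V] [Module F V]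
    [AddCommGroup W] [Module F W] (B : V →ₗ[F] W →ₗ[F] F) (S : V →ₗ[F] V) (T : W →ₗ[F] W)
    (h : ∀ x y, B (S x) y = B x (T y)) {Q Qc : F[X]} (hc : IsCoprime Q Qc)
    (h0 : aeval T (Q * Qc) = 0) (hB : ∀ x, (∀ y, B x y = 0) → x = 0)
    (x : V) (hx : aeval S Q x = 0) (horth : ∀ y, aeval T Q y = 0 → B x y = 0) : x = 0 := by
  obtain ⟨u, v, huv⟩ := hc
  apply hB
  intro y
  have h4 : aeval T (u * Q + v * Qc) y = y := by
    rw [huv, map_one, Module.End.one_apply]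
  rw [map_add, LinearMap.add_apply] at h4
  rw [← h4, map_add, ← Dual_adjoint_aeval B S T h, map_mul, Module.End.mul_apply, hx, map_zero,
    map_zero, LinearMap.zero_apply, zero_add]
  apply horth
  rw [← Module.End.mul_apply, ← map_mul, show Q * (v * Qc) = v * (Q * Qc) by ring, map_mul, h0,
    mul_zero, LinearMap.zero_apply]

/-- the pairing `∑_w ψ(w) φ(w)`. -/
def Dual_sumPair (F Ω : Type) [Field F] [Fintype Ω] : (Ω → F) →ₗ[F] (Ω → F) →ₗ[F] F :=
  LinearMap.mk₂ F (fun ψ φ => ∑ w, ψ w * φ w)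
    (fun a b c => by simp only [Pi.add_apply, add_mul, Finset.sum_add_distrib])
    (fun c a b => by simp only [Pi.smul_apply, smul_eq_mul, mul_assoc, Finset.mul_sum])
    (fun a b c => by simp only [Pi.add_apply, mul_add, Finset.sum_add_distrib])
    (fun c a b => by
      simp only [Pi.smul_apply, smul_eq_mul, Finset.mul_sum]
      exact Finset.sum_congr rfl (fun w _ => by ring))

theorem Dual_sumPair_apply (F Ω : Type) [Field F] [Fintype Ω] (ψ φ : Ω → F) :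
    Dual_sumPair F Ω ψ φ = ∑ w, ψ w * φ w := rfl

theorem Dual_sumPair_left (F Ω : Type) [Field F] [Fintype Ω] (ψ : Ω → F)
    (h : ∀ φ, Dual_sumPair F Ω ψ φ = 0) : ψ = 0 := by
  classical
  funext w
  have := h (Pi.single w 1)
  rw [Dual_sumPair_apply] at this
  simpa [Pi.single_apply] using this

theorem Dual_sumPair_right (F Ω : Type) [Field F] [Fintype Ω] (φ : Ω → F)
    (h : ∀ ψ, Dual_sumPair F Ω ψ φ = 0) : φ = 0 := by
  classical
  funext w
  have := h (Pi.single w 1)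
  rw [Dual_sumPair_apply] at this
  simpa [Pi.single_apply] using this

theorem exists_dualPair_kerQ (N : Subgroup 𝒜.G) [N.Normal] [Finite (𝒜.G ⧸ N)] (t : 𝒜.G)
    {Q Qc : (ZMod p)[X]} (hc : IsCoprime Q Qc)
    (h0 : aeval (rt (ZMod p) (ZMod p) N t) (Q * Qc) = 0)
    (h0' : aeval (rt (ZMod p) (ZMod p) N t⁻¹) (Q * Qc) = 0) :
    Nonempty (DualPair 𝒜.ω
      (kerQ (𝒜.JU N) (rt (ZMod p) (ZMod p) N t⁻¹) (rt_comm _ N t⁻¹) Q)
      (kerQ (𝒜.IU N) (rt (ZMod p) (ZMod p) N t) (rt_comm _ N t) Q)) := by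
  have : Fintype (𝒜.G ⧸ N) := Fintype.ofFinite _
  let B := Dual_sumPair (ZMod p) (𝒜.G ⧸ N)
  have hadj : ∀ ψ φ, B (rt (ZMod p) (ZMod p) N t⁻¹ ψ) φ = B ψ (rt (ZMod p) (ZMod p) N t φ) := by
    intro ψ φ
    show ∑ w, ψ (w * ((t⁻¹ : 𝒜.G) : 𝒜.G ⧸ N)) * φ w = ∑ w, ψ w * φ (w * (t : 𝒜.G ⧸ N))
    rw [← Equiv.sum_comp (Equiv.mulRight (t : 𝒜.G ⧸ N))]
    refine Finset.sum_congr rfl (fun w _ => ?_)
    rw [Equiv.coe_mulRight, QuotientGroup.mk_inv, mul_inv_cancel_right]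
  have hadj' : ∀ φ ψ, B.flip (rt (ZMod p) (ZMod p) N t φ) ψ
      = B.flip φ (rt (ZMod p) (ZMod p) N t⁻¹ ψ) := fun φ ψ => (hadj ψ φ).symm
  refine ⟨DualPair.ofNondeg
    (B.compl₁₂ (LinearMap.ker (aeval (rt (ZMod p) (ZMod p) N t⁻¹) Q)).subtype
      (LinearMap.ker (aeval (rt (ZMod p) (ZMod p) N t) Q)).subtype) ?_ ?_ ?_⟩
  · intro g ψ φ
    show ∑ w, ((𝒜.ω g : ZMod p) * (ψ : 𝒜.G ⧸ N → ZMod p) (g⁻¹ • w))
        * (φ : 𝒜.G ⧸ N → ZMod p) (g⁻¹ • w)
      = (𝒜.ω g : ZMod p) * ∑ w, (ψ : 𝒜.G ⧸ N → ZMod p) w * (φ : 𝒜.G ⧸ N → ZMod p) w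
    rw [Finset.mul_sum, ← Equiv.sum_comp (MulAction.toPerm (g⁻¹ : 𝒜.G))
      (fun w => (𝒜.ω g : ZMod p) * ((ψ : 𝒜.G ⧸ N → ZMod p) w * (φ : 𝒜.G ⧸ N → ZMod p) w))]
    refine Finset.sum_congr rfl (fun w _ => ?_)
    rw [MulAction.toPerm_apply, mul_assoc]
  · intro ψ hψ
    apply Subtype.ext
    refine Dual_nondeg_aux B _ _ hadj hc h0 (Dual_sumPair_left _ _) (ψ : 𝒜.G ⧸ N → ZMod p)
      (LinearMap.mem_ker.1 ψ.2) (fun φ hφ => hψ ⟨φ, LinearMap.mem_ker.2 hφ⟩)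
  · intro φ hφ
    apply Subtype.ext
    refine Dual_nondeg_aux B.flip _ _ hadj' hc h0' (Dual_sumPair_right _ _)
      (φ : 𝒜.G ⧸ N → ZMod p) (LinearMap.mem_ker.1 φ.2)
      (fun ψ hψ => hφ ⟨ψ, LinearMap.mem_ker.2 hψ⟩)

end Fermat.Agent.S56.Euler

end
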