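/-
S56 / Euler / Summand : THE SUMMAND LEMMA.   `ρ` a representation of `H`, `T` an equivariant endomorphism, `Q`, `Qc` coprime with
`(Q Qc)(T) = 0`.  Then `ker Q(T)` is a direct summand of `ρ` (as a representation) and

    `H^i(H, ker Q(T)) ≅ ker Q(T_*)`   on `H^i(H, ρ)`.

Only S55/Coh (`Pair.coeff`, `map0/1/2`, `map1_comp`, `map1_congr`, `map1_id`) + Euler/OC.

NOTATION. `op1 L T hT = (Pair.coeff L T hT).map1`  (`T_*` on `H¹`).

PROOFS.
 (a) `coeff_map1_add/smul/comp/one`: on classes `H1.mk L ρ z` (`Submodule.linearMap_qext`, `ext z`; `Pair.map1_mk`, everything is `rfl`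
     after `Subtype.ext`/`funext`), or `Pair.map1_comp`, `Pair.map1_congr`, `Pair.map1_id`.
 (b) `coeff_map1_aeval`: `Polynomial.induction_on'` on `P` (`aeval_monomial`, powers by induction with `coeff_map1_comp`). To avoid
     dependent-type trouble with the proof argument `hf`, all lemmas are stated for ARBITRARY proofs `hf`.
 (c) `finrank_H1_kerQ`: `u Q + v Qc = 1`. `i := (ker Q(T)).subtype`, `π := (v Qc)(T)` cod-restricted to `ker Q(T)` (`Q(T) (v Qc)(T) = 0`),
     both equivariant; `π ∘ i = id` (`x = (uQ)(T) x + (vQc)(T) x = (vQc)(T) x` on `ker Q(T)`), `i ∘ π = (v Qc)(T)`.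
     So `i_*` is injective, `range i_* = range (i π)_* = range (v Qc)(T_*)` and `range (v Qc)(T_*) = ker Q(T_*)`
     (`⊆`: `Q(T_*) (vQc)(T_*) = (v Q Qc)(T)_* = 0`; `⊇`: `y = (uQ)(T_*) y + (vQc)(T_*) y`).
     `LinearEquiv.ofInjective` + `LinearEquiv.ofEq`, `LinearEquiv.finrank_eq`.
 (d) `finrank_H0_*`: `x ↦ ⟨⟨x, _⟩, _⟩` is a linear equivalence  `H0 (rsub (kerQ ..) D) ≃ ker Q(onH0 D T hT)`:
     `((aeval (onH0 D T hT) Q x : H0 ..) : X) = aeval T Q x` (`aeval_intertwine` for the inclusion `H0 → X`).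
 (e) `coeff_subtype_map2_injective`: `π_* ∘ i_* = id` (`Pair.map2_comp`, `Pair.map2_congr`, `Pair.map2_id`).
-/
import Fermat.Agent.S56.Euler.OC

set_option autoImplicit false

noncomputable section

namespace Fermat.Agent.S56.Euler

open Fermat.Agent.S55 Module Polynomial

variable {k : Type} [Field k] {H : Type} [Group H] {X : Type} [AddCommGroup X] [Module k X]
  (L : Levels H) {ρ : Representation k H X}

/-- `T_*` on `H¹`. -/
abbrev op1 (T : X →ₗ[k] X) (hT : ∀ g x, T (ρ g x) = ρ g (T x)) : H1 L ρ →ₗ[k] H1 L ρ :=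
  (Pair.coeff L T hT).map1

theorem coeff_map1_add (f g : X →ₗ[k] X) (hf : ∀ h x, f (ρ h x) = ρ h (f x))
    (hg : ∀ h x, g (ρ h x) = ρ h (g x)) (hfg : ∀ h x, (f + g) (ρ h x) = ρ h ((f + g) x)) :
    (Pair.coeff L (f + g) hfg).map1 = (Pair.coeff L f hf).map1 + (Pair.coeff L g hg).map1 := by
  apply Submodule.linearMap_qext
  ext z
  rfl

theorem coeff_map1_smul (a : k) (f : X →ₗ[k] X) (hf : ∀ h x, f (ρ h x) = ρ h (f x))
    (haf : ∀ h x, (a • f) (ρ h x) = ρ h ((a • f) x)) :
    (Pair.coeff L (a • f) haf).map1 = a • (Pair.coeff L f hf).map1 := by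
  apply Submodule.linearMap_qext
  ext z
  rfl

theorem coeff_map1_mul (f g : X →ₗ[k] X) (hf : ∀ h x, f (ρ h x) = ρ h (f x))
    (hg : ∀ h x, g (ρ h x) = ρ h (g x)) (hfg : ∀ h x, (f * g) (ρ h x) = ρ h ((f * g) x)) :
    (Pair.coeff L (f * g) hfg).map1 = (Pair.coeff L f hf).map1 * (Pair.coeff L g hg).map1 := by
  apply Submodule.linearMap_qext
  ext z
  rfl

theorem coeff_map1_one (h1 : ∀ h x, (1 : X →ₗ[k] X) (ρ h x) = ρ h ((1 : X →ₗ[k] X) x)) :
    (Pair.coeff L (1 : X →ₗ[k] X) h1).map1 = 1 := by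
  apply Submodule.linearMap_qext
  ext z
  rfl

theorem coeff_map1_aeval (T : X →ₗ[k] X) (hT : ∀ g x, T (ρ g x) = ρ g (T x)) (P : k[X])
    (hP : ∀ g x, aeval T P (ρ g x) = ρ g (aeval T P x)) :
    (Pair.coeff L (aeval T P) hP).map1 = aeval (op1 L T hT) P := by
  have hTn : ∀ (n : ℕ) g x, (T ^ n) (ρ g x) = ρ g ((T ^ n) x) := by
    intro n g x
    have := aeval_comm T hT ((Polynomial.X : k[X]) ^ n) g x
    rwa [map_pow, aeval_X] at this
  have hpow : ∀ (n : ℕ), (Pair.coeff L (T ^ n) (hTn n)).map1 = (op1 L T hT) ^ n := by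
    intro n
    induction n with
    | zero =>
      have e : (Pair.coeff L (T ^ 0) (hTn 0)).map1
          = (Pair.coeff L (1 : X →ₗ[k] X) (fun _ _ => rfl)).map1 :=
        Pair.map1_congr rfl (pow_zero T)
      rw [e, coeff_map1_one, pow_zero]
    | succ n ih =>
      have e : (Pair.coeff L (T ^ (n + 1)) (hTn (n + 1))).map1
          = (Pair.coeff L (T ^ n * T) (by rw [← pow_succ]; exact hTn (n + 1))).map1 :=
        Pair.map1_congr rfl (pow_succ T n)
      rw [e, coeff_map1_mul L _ _ (hTn n) hT, ih, pow_succ]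
  revert hP
  induction P using Polynomial.induction_on' with
  | add P Q ihP ihQ =>
    intro hP
    have e0 : aeval T (P + Q) = aeval T P + aeval T Q := map_add _ _ _
    have e : (Pair.coeff L (aeval T (P + Q)) hP).map1
        = (Pair.coeff L (aeval T P + aeval T Q) (by rw [← e0]; exact hP)).map1 :=
      Pair.map1_congr rfl e0
    rw [e, coeff_map1_add L _ _ (aeval_comm T hT P) (aeval_comm T hT Q), ihP, ihQ, map_add]
  | monomial n a =>
    intro hP
    have e0 : aeval T (monomial n a) = a • T ^ n := by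
      rw [aeval_monomial, Algebra.algebraMap_eq_smul_one, smul_mul_assoc, one_mul]
    have e : (Pair.coeff L (aeval T (monomial n a)) hP).map1
        = (Pair.coeff L (a • T ^ n) (by rw [← e0]; exact hP)).map1 :=
      Pair.map1_congr rfl e0
    rw [e, coeff_map1_smul L a _ (hTn n), hpow, aeval_monomial, Algebra.algebraMap_eq_smul_one,
      smul_mul_assoc, one_mul]

theorem Summand_coeff_map1_zero (h0 : ∀ h x, (0 : X →ₗ[k] X) (ρ h x) = ρ h ((0 : X →ₗ[k] X) x)) :
    (Pair.coeff L (0 : X →ₗ[k] X) h0).map1 = 0 := by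
  apply Submodule.linearMap_qext
  ext z
  rfl

/-- the abstract linear algebra behind the summand lemma. -/
theorem Summand_finrank_aux {V W : Type*} [AddCommGroup V] [Module k V] [AddCommGroup W]
    [Module k W] (i : V →ₗ[k] W) (π : W →ₗ[k] V) (T' : W →ₗ[k] W) {Q Qc u v : k[X]}
    (huv : u * Q + v * Qc = 1) (h0 : aeval T' (Q * Qc) = 0) (h1 : π ∘ₗ i = LinearMap.id)
    (h2 : i ∘ₗ π = aeval T' (v * Qc)) :
    finrank k V = finrank k ↥(LinearMap.ker (aeval T' Q)) := by
  have hinj : Function.Injective i := by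
    intro a b hab
    have ha := LinearMap.congr_fun h1 a
    have hb := LinearMap.congr_fun h1 b
    rw [LinearMap.comp_apply, LinearMap.id_apply] at ha hb
    rw [← ha, ← hb, hab]
  have hrange : LinearMap.range i = LinearMap.ker (aeval T' Q) := by
    ext y
    rw [LinearMap.mem_range, LinearMap.mem_ker]
    constructor
    · rintro ⟨w, rfl⟩
      have hw := LinearMap.congr_fun h1 w
      rw [LinearMap.comp_apply, LinearMap.id_apply] at hw
      have h3 := LinearMap.congr_fun h2 (i w)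
      rw [LinearMap.comp_apply, hw] at h3
      rw [h3, ← Module.End.mul_apply, ← map_mul,
        show Q * (v * Qc) = v * (Q * Qc) by ring, map_mul, h0, mul_zero, LinearMap.zero_apply]
    · intro hy
      refine ⟨π y, ?_⟩
      have h3 := LinearMap.congr_fun h2 y
      rw [LinearMap.comp_apply] at h3
      rw [h3]
      have h4 : aeval T' (u * Q + v * Qc) y = y := by
        rw [huv, map_one, Module.End.one_apply]
      rw [map_add, LinearMap.add_apply, map_mul, Module.End.mul_apply, hy, map_zero, zero_add] at h4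
      exact h4
  rw [← hrange, LinearMap.finrank_range_of_inj hinj]

/-- **summand lemma in degree 1.** -/
theorem finrank_H1_kerQ (T : X →ₗ[k] X) (hT : ∀ g x, T (ρ g x) = ρ g (T x)) {Q Qc : k[X]}
    (hc : IsCoprime Q Qc) (h0 : aeval T (Q * Qc) = 0) :
    finrank k (H1 L (kerQ ρ T hT Q)) = dQ Q (op1 L T hT) := by
  obtain ⟨u, v, huv⟩ := hc
  have hmem : ∀ x, aeval T (v * Qc) x ∈ LinearMap.ker (aeval T Q) := by
    intro x
    rw [LinearMap.mem_ker, ← Module.End.mul_apply, ← map_mul,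
      show Q * (v * Qc) = v * (Q * Qc) by ring, map_mul, h0, mul_zero, LinearMap.zero_apply]
  let i : ↥(LinearMap.ker (aeval T Q)) →ₗ[k] X := (LinearMap.ker (aeval T Q)).subtype
  let π : X →ₗ[k] ↥(LinearMap.ker (aeval T Q)) := (aeval T (v * Qc)).codRestrict _ hmem
  have hi : ∀ (h : H) (x : ↥(LinearMap.ker (aeval T Q))), i (kerQ ρ T hT Q h x) = ρ h (i x) :=
    fun _ _ => rfl
  have hπ : ∀ (h : H) (x : X), π (ρ h x) = kerQ ρ T hT Q h (π x) :=
    fun h x => Subtype.ext (aeval_comm T hT (v * Qc) h x)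
  have hπi : π ∘ₗ i = LinearMap.id := by
    ext x
    have h4 : aeval T (u * Q + v * Qc) (x : X) = x := by
      rw [huv, map_one, Module.End.one_apply]
    rw [map_add, LinearMap.add_apply, map_mul, Module.End.mul_apply, LinearMap.mem_ker.1 x.2,
      map_zero, zero_add] at h4
    exact h4
  have hiπ : i ∘ₗ π = aeval T (v * Qc) := by
    ext x
    rfl
  unfold dQ
  refine Summand_finrank_aux (Pair.coeff L i hi).map1 (Pair.coeff L π hπ).map1 (op1 L T hT) huv
    ?_ ?_ ?_
  · rw [← coeff_map1_aeval L T hT (Q * Qc) (aeval_comm T hT _)]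
    have e : (Pair.coeff L (aeval T (Q * Qc)) (aeval_comm T hT _)).map1
        = (Pair.coeff L (0 : X →ₗ[k] X) (fun h x => by simp)).map1 :=
      Pair.map1_congr rfl h0
    rw [e, Summand_coeff_map1_zero]
  · rw [← Pair.map1_comp, ← Pair.map1_id]
    exact Pair.map1_congr rfl hπi
  · rw [← Pair.map1_comp, ← coeff_map1_aeval L T hT (v * Qc) (aeval_comm T hT _)]
    exact Pair.map1_congr rfl hiπ

/-- the invariants of `ker Q(T)` are the kernel of `Q` of the induced operator on the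
invariants. -/
theorem Summand_finrank_H0 {H' : Type} [Group H'] (ρ' : Representation k H' X) (T : X →ₗ[k] X)
    (Q : k[X]) (ρK : Representation k H' ↥(LinearMap.ker (aeval T Q)))
    (hK : ∀ g x, ((ρK g x : ↥(LinearMap.ker (aeval T Q))) : X) = ρ' g (x : X))
    (T0 : ↥(H0 ρ') →ₗ[k] ↥(H0 ρ')) (hT0 : ∀ x, ((T0 x : ↥(H0 ρ')) : X) = T (x : X)) :
    finrank k ↥(H0 ρK) = dQ Q T0 := by
  unfold dQ
  have hae : ∀ x : ↥(H0 ρ'), ((aeval T0 Q x : ↥(H0 ρ')) : X) = aeval T Q (x : X) := fun x =>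
    aeval_intertwine T0 T (H0 ρ').subtype hT0 Q x
  refine LinearEquiv.finrank_eq
    { toFun := fun x => ⟨⟨((x : ↥(LinearMap.ker (aeval T Q))) : X), fun g => ?_⟩, ?_⟩
      map_add' := fun x y => rfl
      map_smul' := fun a x => rfl
      invFun := fun y => ⟨⟨((y : ↥(H0 ρ')) : X), ?_⟩, fun g => ?_⟩
      left_inv := fun x => rfl
      right_inv := fun y => rfl }
  · rw [← hK, x.2 g]
  · rw [LinearMap.mem_ker]
    apply Subtype.ext
    rw [hae]
    exact LinearMap.mem_ker.1 (x : ↥(LinearMap.ker (aeval T Q))).2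
  · rw [LinearMap.mem_ker, ← hae, LinearMap.mem_ker.1 y.2]
    rfl
  · apply Subtype.ext
    rw [hK]
    exact (y : ↥(H0 ρ')).2 g

/-- degree 0, a subgroup. -/
theorem finrank_H0_rsub_kerQ (D : Subgroup H) (T : X →ₗ[k] X)
    (hT : ∀ g x, T (ρ g x) = ρ g (T x)) (Q : k[X]) :
    finrank k ↥(H0 (rsub (kerQ ρ T hT Q) D)) = dQ Q (onH0 D T hT) :=
  Summand_finrank_H0 (rsub ρ D) T Q _ (fun _ _ => rfl) _ (fun _ => rfl)

/-- degree 0, the whole group. -/
theorem finrank_H0_kerQ (T : X →ₗ[k] X) (hT : ∀ g x, T (ρ g x) = ρ g (T x)) (Q : k[X]) :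
    finrank k ↥(H0 (kerQ ρ T hT Q)) = dQ Q (Pair.coeff L T hT).map0 :=
  Summand_finrank_H0 ρ T Q _ (fun _ _ => rfl) _ (fun _ => rfl)

/-- degree 2: the inclusion of the summand is injective on `H²`. -/
theorem coeff_subtype_map2_injective (T : X →ₗ[k] X) (hT : ∀ g x, T (ρ g x) = ρ g (T x))
    {Q Qc : k[X]} (hc : IsCoprime Q Qc) (h0 : aeval T (Q * Qc) = 0) :
    Function.Injective (Pair.coeff L (ρ := kerQ ρ T hT Q) (σ := ρ)
      (LinearMap.ker (aeval T Q)).subtype (fun _ _ => rfl)).map2 := by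
  obtain ⟨u, v, huv⟩ := hc
  have hmem : ∀ x, aeval T (v * Qc) x ∈ LinearMap.ker (aeval T Q) := by
    intro x
    rw [LinearMap.mem_ker, ← Module.End.mul_apply, ← map_mul]
    have : Q * (v * Qc) = v * (Q * Qc) := by ring
    rw [this, map_mul, h0, mul_zero]
    rfl
  set π : X →ₗ[k] ↥(LinearMap.ker (aeval T Q)) :=
    (aeval T (v * Qc)).codRestrict (LinearMap.ker (aeval T Q)) hmem with hπ
  have hπc : ∀ g x, π (ρ g x) = kerQ ρ T hT Q g (π x) := fun g x =>
    Subtype.ext (aeval_comm T hT (v * Qc) g x)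
  have hπi : π.comp (LinearMap.ker (aeval T Q)).subtype = LinearMap.id := by
    ext x
    show aeval T (v * Qc) (x : X) = (x : X)
    have h1 : aeval T (u * Q + v * Qc) = 1 := by rw [huv, map_one]
    have h2 := LinearMap.congr_fun h1 (x : X)
    rw [map_add, LinearMap.add_apply, map_mul, Module.End.mul_apply, LinearMap.mem_ker.1 x.2,
      map_zero, zero_add, Module.End.one_apply] at h2
    exact h2
  have hcomp : (Pair.coeff L π hπc).map2.comp (Pair.coeff L (ρ := kerQ ρ T hT Q) (σ := ρ)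
      (LinearMap.ker (aeval T Q)).subtype (fun _ _ => rfl)).map2 = LinearMap.id := by
    rw [← Pair.map2_comp, ← Pair.map2_id]
    exact Pair.map2_congr rfl hπi
  exact Function.LeftInverse.injective (g := (Pair.coeff L π hπc).map2)
    (fun y => LinearMap.congr_fun hcomp y)

end Fermat.Agent.S56.Euler

end
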