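/-
S56 / Euler / Core : (EC1) FOR AN ABSTRACT DATUM, from two arithmetic inputs (`CoreHyp`).

`N` normal open `≤ ker ω`, `c` an involution with `ω c = -1`.  `R_t` = right translation on functions on `G/N`.
   `ρ_Q := ker Q(R_t) ⊆ I_N`,   `σ_Q := ker Q(R_{t⁻¹}) ⊆ J_N`   (dual partners, Euler/Dual.lean).
   `e(ρ) := χ(ρ') + dim ρ^c`  (`EA.eulerInv`).
   e(ρ_Q) = χ(σ_Q) + h⁰(c, ρ_Q) = h⁰(σ_Q) - h¹(σ_Q) + [s²(σ_Q) + p⁰(ρ_Q) - h⁰(ρ_Q)] + h⁰(c, ρ_Q)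
          = δ_Q(ω(t)⁻¹) - dQ(R_{t⁻¹} | H¹(J_N)) + s²(σ_Q) + ∑_v dQ(R_t | I_N^{D_v}) - δ_Q(1) + dQ(R_t | I_N^c)   ≤ 0
 by `CoreHyp`; `e(ρ_Q) + e(ρ_Qc) = e(I_N) = 0`  ⟹  `e(ρ_Q) = 0`.
-/
import Fermat.Agent.S56.Euler.Summand
import Fermat.Agent.S56.Euler.Dual
import Fermat.Agent.S56.Euler.Base0
import Fermat.Agent.S56.EA.Chi
import Fermat.Agent.S55.B.Trans.BE

set_option autoImplicit false

noncomputable section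

namespace Fermat.Agent.S56.Euler

open Fermat.Agent.S55 Module Polynomial

variable {p : ℕ} [Fact p.Prime]

/-- `ρ_Q = ker Q(R_t) ⊆ I_N`. -/
abbrev rhoQ (𝒜 : Datum p) (N : Subgroup 𝒜.G) [N.Normal] (t : 𝒜.G) (Q : (ZMod p)[X]) :=
  kerQ (𝒜.IU N) (rt (ZMod p) (ZMod p) N t) (rt_comm _ N t) Q

/-- `σ_Q = ker Q(R_{t⁻¹}) ⊆ J_N`. -/
abbrev sigQ (𝒜 : Datum p) (N : Subgroup 𝒜.G) [N.Normal] (t : 𝒜.G) (Q : (ZMod p)[X]) :=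
  kerQ (𝒜.JU N) (rt (ZMod p) (ZMod p) N t⁻¹) (rt_comm _ N t⁻¹) Q

/-- `R_t` on the `D`-invariants of `I_N`. -/
abbrev opI (𝒜 : Datum p) (N : Subgroup 𝒜.G) [N.Normal] (D : Subgroup 𝒜.G) (t : 𝒜.G) :=
  onH0 (ρ := 𝒜.IU N) D (rt (ZMod p) (ZMod p) N t) (rt_comm _ N t)

/-- `R_t` on `H¹(G, J_N)`. -/
abbrev opJ1 (𝒜 : Datum p) (N : Subgroup 𝒜.G) [N.Normal] (t : 𝒜.G) :=
  op1 𝒜.L (ρ := 𝒜.JU N) (rt (ZMod p) (ZMod p) N t) (rt_comm _ N t)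

/-- THE ARITHMETIC INPUT. -/
structure CoreHyp (𝒜 : Datum p) (N : Subgroup 𝒜.G) [N.Normal] (c : 𝒜.G) : Prop where
  s2 : 𝒜.s2 (𝒜.JU N) = 0
  h1 : ∀ (t : 𝒜.G) (n : ℕ), ¬ p ∣ n → t ^ n ∈ N → ∀ Q Qc : (ZMod p)[X], Q * Qc = X ^ n - 1 →
    delta Q (((𝒜.ω t)⁻¹ : (ZMod p)ˣ) : ZMod p) + ∑ v, dQ Q (opI 𝒜 N (𝒜.D v) t) +
      dQ Q (opI 𝒜 N (Subgroup.zpowers c) t) ≤ dQ Q (opJ1 𝒜 N t⁻¹) + delta Q 1

variable {𝒜 : Datum p}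

section pieces

variable (N : Subgroup 𝒜.G) [N.Normal] (t : 𝒜.G) (Q : (ZMod p)[X])

/-- `(n : ZMod p) ≠ 0`. -/
theorem natCast_ne_zero_of_not_dvd {n : ℕ} (hn : ¬ p ∣ n) : (n : ZMod p) ≠ 0 := by
  rwa [Ne, ZMod.natCast_eq_zero_iff]

/-- `(Q Qc)(R_t) = R_t ^ n - 1 = 0`. -/
theorem aeval_rt_eq_zero {n : ℕ} (ht : t ^ n ∈ N) {Q Qc : (ZMod p)[X]} (hQ : Q * Qc = X ^ n - 1) :
    aeval (rt (ZMod p) (ZMod p) N t) (Q * Qc) = 0 := by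
  rw [hQ, map_sub, map_pow, aeval_X, map_one, rt_pow_eq_one N ht, sub_self]

/-- `H⁰(G, I_N)` = constants, `R_t` acts trivially.
Proof: `finrank_H0_kerQ 𝒜.L`, `dQ_of_scalar` with `a = 1`; `finrank H0 (I_N) = 1` (`finrank_H0_Fun`, `finrank_H0_trivial` of
S55/L/Duality/Triv.lean as in `TransHyp.h0_JU`); an invariant `φ` satisfies `φ(g • w) = φ(w)`, and
`x t N = (x t x⁻¹) • x N`, so `R_t φ = φ`. -/
theorem h0_rhoQ : 𝒜.h0 (rhoQ 𝒜 N t Q) = delta Q 1 := by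
  rw [Datum.h0, finrank_H0_kerQ 𝒜.L]
  congr 1
  apply dQ_of_scalar
  · rw [finrank_H0_Fun 𝒜.triv N, rsub_eq_trivial 𝒜.triv N (fun _ _ => rfl), finrank_H0_trivial,
      Module.finrank_self]
  · intro φ
    rw [one_smul]
    apply Subtype.ext
    show rt (ZMod p) (ZMod p) N t (φ : 𝒜.G ⧸ N → ZMod p) = φ
    funext w
    induction w using QuotientGroup.induction_on with
    | H x =>
      rw [rt_apply]
      have h := congrFun (φ.2 (x * t⁻¹ * x⁻¹)) (x : 𝒜.G ⧸ N)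
      rw [Fun_apply] at h
      have e : (x * t⁻¹ * x⁻¹)⁻¹ • (x : 𝒜.G ⧸ N) = (x : 𝒜.G ⧸ N) * (t : 𝒜.G ⧸ N) := by
        show (((x * t⁻¹ * x⁻¹)⁻¹ * x : 𝒜.G) : 𝒜.G ⧸ N) = ((x * t : 𝒜.G) : 𝒜.G ⧸ N)
        congr 1
        group
      rw [e] at h
      exact h

/-- `H⁰(G, J_N)` = the line of `x ↦ ω(x)`, on which `R_{t⁻¹}` is `ω(t)⁻¹`.
Proof: `finrank_H0_kerQ 𝒜.L`, `dQ_of_scalar` with `a = ω(t)⁻¹`; `finrank H0 (J_N) = 1` is `TransHyp.h0_JU` (its proof does not use the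
`TransHyp`: copy it); an invariant `φ` satisfies `φ(g • w) = ω(g) φ(w)`; `x t⁻¹ N = (x t⁻¹ x⁻¹) • x N`. -/
theorem h0_sigQ (hω : N ≤ 𝒜.ω.ker) :
    𝒜.h0 (sigQ 𝒜 N t Q) = delta Q (((𝒜.ω t)⁻¹ : (ZMod p)ˣ) : ZMod p) := by
  have hmu : ∀ g ∈ N, 𝒜.mu g = 1 := by
    intro g hg
    have hg' : 𝒜.ω g = 1 := MonoidHom.mem_ker.mp (hω hg)
    ext
    simp [Datum.mu, Representation.twist_apply_apply, hg']
  rw [Datum.h0, finrank_H0_kerQ 𝒜.L]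
  congr 1
  apply dQ_of_scalar
  · rw [finrank_H0_Fun 𝒜.mu N, rsub_eq_trivial 𝒜.mu N hmu, finrank_H0_trivial,
      Module.finrank_self]
  · intro φ
    apply Subtype.ext
    show rt (ZMod p) (ZMod p) N t⁻¹ (φ : 𝒜.G ⧸ N → ZMod p)
      = (((𝒜.ω t)⁻¹ : (ZMod p)ˣ) : ZMod p) • (φ : 𝒜.G ⧸ N → ZMod p)
    funext w
    induction w using QuotientGroup.induction_on with
    | H x =>
      rw [rt_apply, Pi.smul_apply]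
      have h := congrFun (φ.2 (x * t * x⁻¹)) (x : 𝒜.G ⧸ N)
      rw [Fun_apply] at h
      have e : (x * t * x⁻¹)⁻¹ • (x : 𝒜.G ⧸ N) = (x : 𝒜.G ⧸ N) * ((t⁻¹ : 𝒜.G) : 𝒜.G ⧸ N) := by
        show (((x * t * x⁻¹)⁻¹ * x : 𝒜.G) : 𝒜.G ⧸ N) = ((x * t⁻¹ : 𝒜.G) : 𝒜.G ⧸ N)
        congr 1
        group
      rw [e] at h
      have hω' : 𝒜.ω (x * t * x⁻¹) = 𝒜.ω t := by
        rw [map_mul, map_mul, map_inv, mul_comm (𝒜.ω x), mul_assoc, mul_inv_cancel, mul_one]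
      rw [← h]
      simp only [Datum.mu, Representation.twist_apply_apply, hω', Representation.trivial_apply]
      rw [smul_smul, Units.inv_mul, one_smul]

/-- `p⁰(ρ_Q) = ∑_v dQ(R_t | I_N^{D_v})`: `Module.finrank_pi_fintype` + `finrank_H0_rsub_kerQ`. -/
theorem p0_rhoQ [Finite (𝒜.G ⧸ N)] :
    𝒜.p0 (rhoQ 𝒜 N t Q) = ∑ v, (dQ Q (opI 𝒜 N (𝒜.D v) t) : ℤ) := by
  unfold Datum.p0
  rw [Module.finrank_pi_fintype, Nat.cast_sum]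
  refine Finset.sum_congr rfl fun v _ => ?_
  rw [finrank_H0_rsub_kerQ]

end pieces

/-- `s²` of a summand.  `i_* : H²(ker Q(T)) → H²(ρ)` is injective (`coeff_subtype_map2_injective`) and maps `Ш²` to `Ш²`
(`Datum.loc2_g2`: `loc2 ρ (g2 i x) = l2 i (loc2 _ x) = 0`); `LinearMap.finrank_le_finrank_of_injective` for the restriction
(`ax.fin2 ρ` gives finite dimensionality). -/
theorem s2_kerQ_le (ax : 𝒜.Axioms) {X : Type} [AddCommGroup X] [Module (ZMod p) X]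
    [FiniteDimensional (ZMod p) X] (ρ : Representation (ZMod p) 𝒜.G X) [Smooth 𝒜.L ρ]
    (T : X →ₗ[ZMod p] X) (hT : ∀ g x, T (ρ g x) = ρ g (T x)) {Q Qc : (ZMod p)[X]}
    (hc : IsCoprime Q Qc) (h0 : aeval T (Q * Qc) = 0) :
    𝒜.s2 (kerQ ρ T hT Q) ≤ 𝒜.s2 ρ := by
  unfold Datum.s2
  have hfin := ax.fin2 ρ
  have hcomm : ∀ (g : 𝒜.G) (x : ↥(LinearMap.ker (aeval T Q))),
      (LinearMap.ker (aeval T Q)).subtype (kerQ ρ T hT Q g x)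
        = ρ g ((LinearMap.ker (aeval T Q)).subtype x) := fun _ _ => rfl
  have hinj : Function.Injective (𝒜.g2 (LinearMap.ker (aeval T Q)).subtype hcomm) :=
    coeff_subtype_map2_injective 𝒜.L T hT hc h0
  have hmaps : ∀ x ∈ 𝒜.Sha2 (kerQ ρ T hT Q),
      𝒜.g2 (LinearMap.ker (aeval T Q)).subtype hcomm x ∈ 𝒜.Sha2 ρ := by
    intro x hx
    rw [Datum.Sha2, LinearMap.mem_ker] at hx ⊢
    rw [𝒜.loc2_g2 (LinearMap.ker (aeval T Q)).subtype hcomm x, hx, map_zero]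
  have hr : Function.Injective
      ((𝒜.g2 (LinearMap.ker (aeval T Q)).subtype hcomm).restrict hmaps) := by
    intro a b hab
    apply Subtype.ext
    apply hinj
    exact congrArg Subtype.val hab
  exact_mod_cast LinearMap.finrank_le_finrank_of_injective hr

/-- `χ(σ) = h⁰(σ) - h¹(σ) + s²(σ) + p⁰(ρ) - h⁰(ρ)` for a dual pair.
(`ax.h2_eq σ`, `Datum.c`, `ax.c_eq_h0 d`, `ax.p2_eq_p0 d`.) -/
theorem chi_eq_of_dualPair (ax : 𝒜.Axioms) {X Y : Type} [AddCommGroup X] [Module (ZMod p) X]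
    [FiniteDimensional (ZMod p) X] [AddCommGroup Y] [Module (ZMod p) Y]
    [FiniteDimensional (ZMod p) Y] {ρ : Representation (ZMod p) 𝒜.G X}
    {σ : Representation (ZMod p) 𝒜.G Y} [Smooth 𝒜.L ρ] [Smooth 𝒜.L σ] (d : DualPair 𝒜.ω σ ρ) :
    𝒜.chi σ = 𝒜.h0 σ - 𝒜.h1 σ + (𝒜.s2 σ + 𝒜.p0 ρ - 𝒜.h0 ρ) := by
  have h1 := ax.h2_eq σ
  have h2 := ax.c_eq_h0 d
  have h3 := ax.p2_eq_p0 d
  unfold Datum.chi
  unfold Datum.c at h2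
  linarith

end Fermat.Agent.S56.Euler

end
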