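/-
S56 / Euler / Core2 : assembly of (EC1) for an abstract datum:  `CoreHyp ⟹ Base0 (eulerInv)`.
-/
import Fermat.Agent.S56.Euler.Core

set_option autoImplicit false
set_option linter.style.haveILetI false

noncomputable section

namespace Fermat.Agent.S56.Euler

open Fermat.Agent.S55 Module Polynomial

variable {p : ℕ} [Fact p.Prime] {𝒜 : Datum p}

/-- `N` (normal) acts trivially on `Fun ρ (G/N)` if it acts trivially on `ρ`.
(`n⁻¹ • x N = x (x⁻¹ n⁻¹ x) N = x N`.) -/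
theorem Fun_trivial_on {G : Type} [Group G] (N : Subgroup G) [N.Normal] {X : Type} [AddCommGroup X]
    [Module (ZMod p) X] (ρ : Representation (ZMod p) G X) (hρ : ∀ n ∈ N, ρ n = 1) :
    ∀ n ∈ N, Fun ρ (G ⧸ N) n = 1 := by
  intro n hn
  ext f w
  rw [Fun_apply, hρ n hn]
  have hw : n⁻¹ • w = w := by
    induction w using QuotientGroup.induction_on with
    | H x =>
      show ((n⁻¹ * x : G) : G ⧸ N) = (x : G ⧸ N)
      rw [QuotientGroup.eq, mul_inv_rev, inv_inv]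
      exact (inferInstance : N.Normal).conj_mem' n hn x
  rw [hw]
  rfl

/-- `μ` is trivial on `ker ω`. (`Datum.mu`, `Representation.twist_apply_apply`.) -/
theorem mu_trivial_on (N : Subgroup 𝒜.G) (hω : N ≤ 𝒜.ω.ker) : ∀ n ∈ N, 𝒜.mu n = 1 := by
  intro n hn
  have h1 : 𝒜.ω n = 1 := hω hn
  ext
  simp [Datum.mu, Representation.twist_apply_apply, h1]

/-- a subrepresentation of a representation which is trivial on `N` is trivial on `N`. -/
theorem kerQ_trivial_on {G : Type} [Group G] (N : Subgroup G) {X : Type} [AddCommGroup X]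
    [Module (ZMod p) X] (ρ : Representation (ZMod p) G X) (hρ : ∀ n ∈ N, ρ n = 1)
    (T : X →ₗ[ZMod p] X) (hT : ∀ g x, T (ρ g x) = ρ g (T x)) (Q : (ZMod p)[X]) :
    ∀ n ∈ N, kerQ ρ T hT Q n = 1 := by
  intro n hn
  ext x
  show ρ n x.1 = x.1
  rw [hρ n hn]; rfl

/-- (helper) orbits of a free involution. -/
theorem Core2_card_orbits {G : Type} [Group G] (N : Subgroup G) [N.Normal] [Finite (G ⧸ N)] (c : G)
    (hc : c * c = 1) (hcN : c ∉ N) :
    2 * Nat.card (MulAction.orbitRel.Quotient ↥(Subgroup.zpowers c) (G ⧸ N)) = N.index := by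
  classical
  have hc1 : c ≠ 1 := fun h => hcN (h ▸ N.one_mem)
  have hord : orderOf c = 2 := orderOf_eq_prime (by rw [pow_two]; exact hc) hc1
  have hfo : IsOfFinOrder c := by
    rw [← orderOf_pos_iff, hord]; norm_num
  haveI : Finite ↥(Subgroup.zpowers c) := (finite_zpowers.mpr hfo).to_subtype
  letI : Fintype ↥(Subgroup.zpowers c) := Fintype.ofFinite _
  letI : Fintype (G ⧸ N) := Fintype.ofFinite _
  haveI : Finite (MulAction.orbitRel.Quotient ↥(Subgroup.zpowers c) (G ⧸ N)) := Quotient.finite _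
  letI : Fintype (Quotient (MulAction.orbitRel ↥(Subgroup.zpowers c) (G ⧸ N))) := Fintype.ofFinite _
  have hb := MulAction.sum_card_fixedBy_eq_card_orbits_mul_card_group ↥(Subgroup.zpowers c) (G ⧸ N)
  have hcard : Fintype.card ↥(Subgroup.zpowers c) = 2 := by
    rw [← Nat.card_eq_fintype_card, Nat.card_zpowers, hord]
  have helt : ∀ a : ↥(Subgroup.zpowers c), a ≠ 1 → (a : G) = c := by
    rintro ⟨a, ha⟩ hne
    obtain ⟨k, rfl⟩ := Subgroup.mem_zpowers_iff.mp ha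
    have hc2 : c ^ (2 : ℤ) = 1 := by rw [zpow_ofNat, pow_two]; exact hc
    rcases Int.even_or_odd' k with ⟨m, rfl | rfl⟩
    · exfalso
      apply hne
      apply Subtype.ext
      show c ^ (2 * m) = 1
      rw [zpow_mul, hc2, one_zpow]
    · show c ^ (2 * m + 1) = c
      rw [zpow_add, zpow_mul, hc2, one_zpow, one_mul, zpow_one]
  have hfix : ∀ a : ↥(Subgroup.zpowers c),
      Fintype.card (MulAction.fixedBy (G ⧸ N) a) = if a = 1 then Fintype.card (G ⧸ N) else 0 := by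
    intro a
    split_ifs with ha
    · subst ha
      rw [Fintype.card_eq_nat_card, Fintype.card_eq_nat_card]
      simp
    · rw [Fintype.card_eq_zero_iff]
      refine ⟨fun ⟨w, hw⟩ => ?_⟩
      rw [MulAction.mem_fixedBy] at hw
      have hw' : c • w = w := by
        rw [← helt a ha]; exact hw
      induction w using QuotientGroup.induction_on with
      | H x =>
        have h2 : ((c * x : G) : G ⧸ N) = (x : G ⧸ N) := hw'
        rw [QuotientGroup.eq, mul_inv_rev] at h2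
        have h3 := (inferInstance : N.Normal).conj_mem _ h2 x
        apply hcN
        have h4 : x * (x⁻¹ * c⁻¹ * x) * x⁻¹ = c⁻¹ := by group
        rw [h4] at h3
        exact (N.inv_mem_iff).mp h3
  rw [Finset.sum_congr rfl (fun a _ => hfix a), Finset.sum_ite_eq' Finset.univ (1 : ↥(Subgroup.zpowers c)),
    if_pos (Finset.mem_univ _), hcard] at hb
  rw [Subgroup.index, Nat.card_eq_fintype_card (α := G ⧸ N), hb, mul_comm]
  congr 1
  exact Nat.card_eq_fintype_card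

/-- `c` acts freely on `G/N`: the invariant functions have dimension `[G:N]/2`.
Proof: as in `TransHyp.finrank_H0_loc_IU` (B/Trans/Mackey.lean; replace `𝒜.D v` by `zpowers c`):
`finrank H0 = Nat.card (orbitRel.Quotient (zpowers c) (G/N))`; every orbit has exactly two elements `{w, c • w}`, `c • w ≠ w`
(`c • x N = x N ⟹ x⁻¹ c x ∈ N ⟹ c ∈ N`).  Or directly: `φ ↦ φ + c φ` and `φ ↦ φ - c φ` ... any route. -/
theorem two_mul_finrank_H0_invol (N : Subgroup 𝒜.G) [N.Normal] [Finite (𝒜.G ⧸ N)] (c : 𝒜.G)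
    (hc : c * c = 1) (hcN : c ∉ N) :
    2 * finrank (ZMod p) ↥(H0 (rsub (𝒜.IU N) (Subgroup.zpowers c))) = N.index := by
  rw [← Core2_card_orbits N c hc hcN]
  congr 1
  haveI : Finite (Trans.Orb (Subgroup.zpowers c) (𝒜.G ⧸ N)) := Quotient.finite _
  letI : Fintype (Trans.Orb (Subgroup.zpowers c) (𝒜.G ⧸ N)) := Fintype.ofFinite _
  have hb := evSub_pi_bijective0 𝒜.Lloc 𝒜.triv (𝒜.G ⧸ N) (Subgroup.zpowers c)
    (Trans.rep (Subgroup.zpowers c) (𝒜.G ⧸ N))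
    (Trans.stab (Subgroup.zpowers c) (𝒜.G ⧸ N)) (Trans.mem_stab_iff (Subgroup.zpowers c) (𝒜.G ⧸ N))
    (Trans.existsUnique_rep (Subgroup.zpowers c) (𝒜.G ⧸ N))
  rw [(LinearEquiv.ofBijective _ hb).finrank_eq, Module.finrank_pi_fintype]
  have h1 : ∀ j : Trans.Orb (Subgroup.zpowers c) (𝒜.G ⧸ N),
      finrank (ZMod p) ↥(H0 (rsub 𝒜.triv (Trans.stab (Subgroup.zpowers c) (𝒜.G ⧸ N) j))) = 1 := by
    intro j
    have := finrank_H0_trivial (k := ZMod p)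
      (H := ↥(Trans.stab (Subgroup.zpowers c) (𝒜.G ⧸ N) j)) (ZMod p)
    rw [Module.finrank_self] at this
    exact this
  rw [Finset.sum_congr rfl (fun j _ => h1 j), Finset.sum_const, Finset.card_univ, smul_eq_mul,
    mul_one]
  exact (Nat.card_eq_fintype_card (α := Trans.Orb (Subgroup.zpowers c) (𝒜.G ⧸ N))).symm

variable (ax : 𝒜.Axioms) (hp2 : p ≠ 2) (N : Subgroup 𝒜.G) [N.Normal] (hN : 𝒜.L.IsOpen N)
  (hω : N ≤ 𝒜.ω.ker) (c : 𝒜.G) (hc : c * c = 1)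

include hω in
theorem e_rhoQ_le (H : CoreHyp 𝒜 N c) (t : 𝒜.G) (n : ℕ) (hn : ¬ p ∣ n) (ht : t ^ n ∈ N)
    (Q Qc : (ZMod p)[X]) (hQ : Q * Qc = X ^ n - 1) :
    (EA.eulerInv ax hp2 N hN c hc).e (rhoQ 𝒜 N t Q) ≤ 0 := by
  haveI : Finite (𝒜.G ⧸ N) := 𝒜.finite_quotient N hN
  have hcop : IsCoprime Q Qc := isCoprime_of_mul_eq (natCast_ne_zero_of_not_dvd hn) hQ
  have ht' : t⁻¹ ^ n ∈ N := by rw [inv_pow]; exact N.inv_mem ht
  have h0 := aeval_rt_eq_zero N t ht hQ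
  have h0' := aeval_rt_eq_zero N t⁻¹ ht' hQ
  obtain ⟨d⟩ := exists_dualPair_kerQ 𝒜 N t hcop h0 h0'
  have hI : ∀ n ∈ N, 𝒜.IU N n = 1 := Fun_trivial_on N _ (fun _ _ => rfl)
  have hJ : ∀ n ∈ N, 𝒜.JU N n = 1 := Fun_trivial_on N _ (mu_trivial_on N hω)
  haveI : Smooth 𝒜.L (𝒜.JU N) := EA.smooth_of_trivial_on hN hJ
  haveI : Smooth 𝒜.L (rhoQ 𝒜 N t Q) :=
    EA.smooth_of_trivial_on hN (kerQ_trivial_on N _ hI _ _ Q)
  haveI : Smooth 𝒜.L (sigQ 𝒜 N t Q) :=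
    EA.smooth_of_trivial_on hN (kerQ_trivial_on N _ hJ _ _ Q)
  rw [EA.eulerInv_e, chi_dualT_eq_of_dualPair 𝒜 d, chi_eq_of_dualPair ax d, h0_rhoQ, h0_sigQ N t Q hω,
    p0_rhoQ, finrank_H0_rsub_kerQ]
  have e1 : 𝒜.h1 (sigQ 𝒜 N t Q) = dQ Q (opJ1 𝒜 N t⁻¹) := by
    unfold Datum.h1
    rw [finrank_H1_kerQ 𝒜.L _ _ hcop h0']
  have e2 : 𝒜.s2 (sigQ 𝒜 N t Q) ≤ 0 := by
    have := s2_kerQ_le ax (𝒜.JU N) _ (rt_comm _ N t⁻¹) hcop h0'
    rw [H.s2] at this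
    exact this
  have e3 := H.h1 t n hn ht Q Qc hQ
  rw [e1]
  have e3' : (delta Q (((𝒜.ω t)⁻¹ : (ZMod p)ˣ) : ZMod p) : ℤ) + ∑ v, (dQ Q (opI 𝒜 N (𝒜.D v) t) : ℤ) +
      (dQ Q (opI 𝒜 N (Subgroup.zpowers c) t) : ℤ) ≤ (dQ Q (opJ1 𝒜 N t⁻¹) : ℤ) + (delta Q 1 : ℤ) := by
    exact_mod_cast e3
  linarith

include hω in
theorem e_IU {n : 𝒜.ι → ℕ} (hT : TransHyp 𝒜 n) (hcN : c ∉ N) :
    (EA.eulerInv ax hp2 N hN c hc).e (𝒜.IU N) = 0 := by
  haveI : Finite (𝒜.G ⧸ N) := 𝒜.finite_quotient N hN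
  have hI : ∀ n ∈ N, 𝒜.IU N n = 1 := Fun_trivial_on N _ (fun _ _ => rfl)
  haveI : Smooth 𝒜.L (𝒜.IU N) := EA.smooth_of_trivial_on hN hI
  have hE : 𝒜.E (𝒜.IU N) = 0 := le_antisymm (ax.E_le_zero _) (ax.E_nonneg _)
  unfold Datum.E at hE
  rw [𝒜.chi_IU_eq N hω, 𝒜.chi_dualT_IU_eq N, hT.chiLoc_IU N hN hω] at hE
  rw [EA.eulerInv_e, 𝒜.chi_dualT_IU_eq N]
  have h2 := two_mul_finrank_H0_invol (𝒜 := 𝒜) N c hc hcN
  have h2' : 2 * (finrank (ZMod p) ↥(H0 (rsub (𝒜.IU N) (Subgroup.zpowers c))) : ℤ) = (N.index : ℤ) := by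
    exact_mod_cast h2
  linarith

include hω in
/-- **(EC1), abstract form.** -/
theorem base0 (H : CoreHyp 𝒜 N c) {n : 𝒜.ι → ℕ} (hT : TransHyp 𝒜 n) (hcN : c ∉ N) :
    Base0 (EA.eulerInv ax hp2 N hN c hc) := by
  intro t m hm ht Q Qc hQ
  haveI : Finite (𝒜.G ⧸ N) := 𝒜.finite_quotient N hN
  have hcop : IsCoprime Q Qc := isCoprime_of_mul_eq (natCast_ne_zero_of_not_dvd hm) hQ
  have h0 := aeval_rt_eq_zero N t ht hQ
  have hI : ∀ n ∈ N, 𝒜.IU N n = 1 := Fun_trivial_on N _ (fun _ _ => rfl)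
  have l1 := e_rhoQ_le ax hp2 N hN hω c hc H t m hm ht Q Qc hQ
  have l2 := e_rhoQ_le ax hp2 N hN hω c hc H t m hm ht Qc Q (by rw [mul_comm]; exact hQ)
  have l3 := e_IU ax hp2 N hN hω c hc hT hcN
  have l4 := (EA.eulerInv ax hp2 N hN c hc).e_eq_ker_add_range hI
    (aeval (rt (ZMod p) (ZMod p) N t) Q) (aeval_comm _ (rt_comm _ N t) Q)
  have l5 := (EA.eulerInv ax hp2 N hN c hc).e_sub_congr (𝒜.IU N)
    (range_le_comap _ (aeval_comm _ (rt_comm 𝒜.triv N t) Q))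
    (ker_le_comap _ (aeval_comm _ (rt_comm 𝒜.triv N t) Qc))
    (range_aeval_eq_ker _ hcop h0)
  have l1' : (EA.eulerInv ax hp2 N hN c hc).e (kerRep (aeval (rt (ZMod p) (ZMod p) N t) Q)
      (aeval_comm _ (rt_comm 𝒜.triv N t) Q)) ≤ 0 := l1
  have goal : (EA.eulerInv ax hp2 N hN c hc).e (rhoQ 𝒜 N t Q) = 0 := by
    have l2' : (EA.eulerInv ax hp2 N hN c hc).e ((𝒜.IU N).subrepresentation
      (LinearMap.ker (aeval (rt (ZMod p) (ZMod p) N t) Qc))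
      (ker_le_comap _ (aeval_comm _ (rt_comm 𝒜.triv N t) Qc))) ≤ 0 := l2
    rw [l3, l5] at l4
    linarith
  exact goal

end Fermat.Agent.S56.Euler

end
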