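/-
S56 / Euler / Shap : under Shapiro's isomorphism `sh : H¹(H, Fun ρ (H/N)) ≅ H¹(N, ρ)` (`N` normal) the operator induced by the right
translation `R_{t⁻¹}` becomes the conjugation map `c_t = (Pair.conj L ρ t _).map1`  (`(c_t z)(v) = ρ(t)⁻¹ z(t v t⁻¹)`).

PROOF of `sh_rt_inv`.  `x₀ := (1 : H/N)`.  `conj_ev1 L ρ (H ⧸ N) t h x₀ hx hx' y'` (S55/Coh/Conj.lean):
   `c_t (ev_{t • x₀} y') = ev_{x₀} y'`   for all `y'`;  `Pair.sh L ρ N = Pair.ev L ρ (H ⧸ N) N x₀ _` by definition.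
 Take `y' := (R_{t⁻¹})_* y`.  `ev_{t • x₀} ((R_{t⁻¹})_* y) = ev_{x₀} y`: both are `P.map1 y` for pairs with the same `f = N.subtype` and the same
 `φ`: `(R_{t⁻¹} φ)(t • x₀) = φ((t • x₀) * t⁻¹) = φ(x₀)` (`Pair.map1_comp`, `Pair.map1_congr`, or `comp1` of Coh/Flat.lean).
 `dQ_op1_rt_inv`: `dQ_conj` with `LinearEquiv.ofBijective _ (sh_bijective1 L ρ N hN)`.
-/
import Fermat.Agent.S56.Euler.Summand

set_option autoImplicit false

noncomputable section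

namespace Fermat.Agent.S56.Euler

open Fermat.Agent.S55 Module Polynomial

variable {k : Type} [Field k] {H : Type} [Group H] {X : Type} [AddCommGroup X] [Module k X]
  (L : Levels H) (ρ : Representation k H X)

/-- conjugation by `t` on `H¹(N, ρ)`, `N` normal. -/
abbrev conj1 (N : Subgroup H) [hN : N.Normal] (t : H) :
    H1 (L.sub N) (rsub ρ N) →ₗ[k] H1 (L.sub N) (rsub ρ N) :=
  (Pair.conj L ρ t (V := N) (V' := N) (fun v hv => hN.conj_mem v hv t)).map1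

theorem sh_rt_inv (N : Subgroup H) [N.Normal] (t : H) (y : H1 L (Fun ρ (H ⧸ N))) :
    (Pair.sh L ρ N).map1 (op1 L (rt k X N t⁻¹) (rt_comm ρ N t⁻¹) y) =
      conj1 L ρ N t ((Pair.sh L ρ N).map1 y) := by
  have hN : N.Normal := inferInstance
  have hx' : ∀ v ∈ N, v • ((1 : H) : H ⧸ N) = ((1 : H) : H ⧸ N) :=
    fun v hv => (mem_iff_smul_coe_one N v).1 hv
  have hx : ∀ v ∈ N, v • (t • ((1 : H) : H ⧸ N)) = t • ((1 : H) : H ⧸ N) := by
    intro v hv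
    have h1 : t⁻¹ * v * t ∈ N := by simpa using hN.conj_mem v hv t⁻¹
    have h2 := hx' _ h1
    have h3 : v * t = t * (t⁻¹ * v * t) := by group
    rw [← mul_smul, h3, mul_smul, h2]
  have key := conj_ev1 L ρ (H ⧸ N) t (V := N) (V' := N) (fun v hv => hN.conj_mem v hv t)
    ((1 : H) : H ⧸ N) hx hx' (op1 L (rt k X N t⁻¹) (rt_comm ρ N t⁻¹) y)
  have e : ((Pair.ev L ρ (H ⧸ N) N (t • ((1 : H) : H ⧸ N)) hx).comp
      (Pair.coeff L (rt k X N t⁻¹) (rt_comm ρ N t⁻¹))).map1 = (Pair.sh L ρ N).map1 := by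
    refine Pair.map1_congr (by ext _; rfl) ?_
    ext F
    change F ((t • ((1 : H) : H ⧸ N)) * ((t⁻¹ : H) : H ⧸ N)) = F ((1 : H) : H ⧸ N)
    congr 1
    change (((t * 1 * t⁻¹ : H)) : H ⧸ N) = ((1 : H) : H ⧸ N)
    rw [mul_one, mul_inv_cancel]
  rw [Pair.map1_comp] at e
  have e' : (Pair.ev L ρ (H ⧸ N) N (t • ((1 : H) : H ⧸ N)) hx).map1
      (op1 L (rt k X N t⁻¹) (rt_comm ρ N t⁻¹) y) = (Pair.sh L ρ N).map1 y :=
    congrArg (fun F => F y) e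
  rw [e'] at key
  exact key.symm

theorem dQ_op1_rt_inv [Smooth L ρ] (N : Subgroup H) [N.Normal] (hN : L.IsOpen N) (t : H)
    (Q : k[X]) :
    dQ Q (op1 L (rt k X N t⁻¹) (rt_comm ρ N t⁻¹)) = dQ Q (conj1 L ρ N t) :=
  dQ_conj Q _ _ (LinearEquiv.ofBijective _ (sh_bijective1 L ρ N hN)) (sh_rt_inv L ρ N t)

end Fermat.Agent.S56.Euler

end
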