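/-
S56 / Euler / KumE : the Kummer map on the `Σ`-units mod `p` and its equivariance.

`(L, ι)` a number field with embedding, `N = fixG ι`, `h : B.Setup p S ι` (`μ_p ⊆ L`, `L` unramified outside `S ∋ p`).
`kumE h : EE p L (SK S ι) → H¹(N, L_S; μ_p)`, `ξ ↦ [kumK h ξ]`.

PROOFS.
* `EE_le_ker_divp`: `ξ = cls x`, `x` a `T`-unit: `ordp p L v (cls p x) = (ordZ v x : ZMod p) = 0` for `v ∉ T` (first half of the proof of
  `B.mem_EE_iff`, S55/B/Idx1.lean: `mem_img`, `ordp_cls'`, `mem_unit_iff`); `divp_apply`, `funext`.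
* `kumE_injective`: `B1 (rsub (mu p) N) = ⊥` as in the proof of `B.n1` (S55/B/N1.lean), so `H1.mk` is injective on cocycles
  (`H1.mk_eq_zero_iff`: `z g = μ(g) x - x = 0` by `h.mu_apply`), and `kumK_injective h`.
* `conj_kumE`: on cocycles.  `ξ = cls p x` (`mem_img`/`cls_surjective`), `β ^ p = toQ ι x` (`B.exists_root`).  For `v ∈ N`:
    `(c_t z)(v) = μ(t⁻¹) (z (t v t⁻¹)) = ω(t)⁻¹ * kum p β (t v t⁻¹)`   (`Pair.conj`, `Pair.map1_mk`, `Pair.z1_coe`, `Pair.c1_apply`, `kumK_cls`)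
  and `kumK h (cls p (s x)) v = kum p β' v` with `β' := t⁻¹ β` (as a unit: `Units.map t⁻¹`), `β' ^ p = t⁻¹ (ι x) = ι (s x)`.
  Then `kum_conj p β t v` (Euler/KumConj.lean, black box): `kum p (t⁻¹ β) v = ω(t)⁻¹ * kum p β (t v t⁻¹)`; its hypothesis holds since
  `t v t⁻¹ ∈ N` fixes `β ^ p = ι x`.
* `dQ_le_conj1`: `dQ_le_of_injective` with `i = kumE h`; finite dimensionality: `(B.num_model hp2 S ι h).1`.
-/
import Fermat.Agent.S56.Euler.Shap
import Fermat.Agent.S56.Euler.KumConj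
import Fermat.Agent.S55.B.Num

set_option autoImplicit false
set_option linter.style.haveILetI false

noncomputable section

namespace Fermat.Agent.S56.Euler

open Fermat.Agent.S55 Fermat.Agent.S55.Places ExtCitation Module Polynomial

variable {p : ℕ} [Fact p.Prime] {S : Finset Nat.Primes} {L : Type} [Field L] [NumberField L]
  {ι : L →+* Qbar}

theorem EE_le_ker_divp (T : Set (G.Pl L)) : G.EE p L T ≤ LinearMap.ker (B.divp p L T) := by
  intro ξ hξ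
  obtain ⟨x, hx, rfl⟩ := (G.mem_img p).1 hξ
  rw [LinearMap.mem_ker]
  funext v
  rw [B.divp_apply, B.ordp_cls', (B.mem_unit_iff T x).1 hx v.1 v.2, Int.cast_zero]
  rfl

/-- the Kummer map on `Σ`-units mod `p`. -/
def kumE (h : B.Setup p S ι) : ↥(G.EE p L (B.SK S ι)) →ₗ[ZMod p]
    H1 ((LS S).sub (G.fixG ι)) (rsub (mu p) (G.fixG ι)) :=
  (H1.mk ((LS S).sub (G.fixG ι)) (rsub (mu p) (G.fixG ι))).comp
    (LinearMap.codRestrict _ ((B.kumK h).comp (Submodule.subtype _))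
      (fun ξ => (B.kumK_mem_Z1_LS_iff h ξ.1).mpr (EE_le_ker_divp _ ξ.2)))

theorem KumE_coe_apply (h : B.Setup p S ι) (ξ : ↥(G.EE p L (B.SK S ι))) :
    kumE h ξ = H1.mk ((LS S).sub (G.fixG ι)) (rsub (mu p) (G.fixG ι))
      ⟨B.kumK h ξ.1, (B.kumK_mem_Z1_LS_iff h ξ.1).mpr (EE_le_ker_divp _ ξ.2)⟩ := rfl

theorem kumE_injective (h : B.Setup p S ι) : Function.Injective (kumE h) := by
  rw [← LinearMap.ker_eq_bot, LinearMap.ker_eq_bot']
  intro ξ hξ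
  rw [KumE_coe_apply, H1.mk_eq_zero_iff] at hξ
  obtain ⟨x, hx⟩ := hξ
  apply Subtype.ext
  apply B.kumK_injective h
  rw [Submodule.coe_zero, map_zero]
  funext g
  have := hx g
  rw [h.mu_apply, sub_self] at this
  exact this

theorem conj_kumE (h : B.Setup p S ι) [(G.fixG ι).Normal] (t : GQ) (s : L ≃+* L)
    (hs : ∀ x, ι (s x) = t⁻¹ (ι x))
    (T : ↥(G.EE p L (B.SK S ι)) →ₗ[ZMod p] ↥(G.EE p L (B.SK S ι)))
    (hT : ∀ ξ, ((T ξ : ↥(G.EE p L (B.SK S ι))) : G.KP p L) = KPmap p s ξ)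
    (ξ : ↥(G.EE p L (B.SK S ι))) :
    kumE h (T ξ) = conj1 (LS S) (mu p) (G.fixG ι) t (kumE h ξ) := by
  rw [KumE_coe_apply, KumE_coe_apply, Pair.map1_mk]
  congr 1
  apply Subtype.ext
  rw [Pair.z1_coe]
  funext v
  obtain ⟨ξ, hξ⟩ := ξ
  obtain ⟨x, rfl⟩ := G.cls_surjective p ξ
  obtain ⟨β, hβ⟩ := B.exists_root p (B.toQ ι x)
  have hβ' : (β : Qbar) ^ p = ι (x : L) := by
    rw [← Units.val_pow_eq_pow_val, hβ, B.coe_toQ]
  have hN : (G.fixG ι).Normal := inferInstance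
  have hmem : t * (v : GQ) * t⁻¹ ∈ G.fixG ι := hN.conj_mem v v.2 t
  have hfix : (t * (v : GQ) * t⁻¹) ((β : Qbar) ^ p) = (β : Qbar) ^ p := by
    rw [hβ']
    exact hmem x
  have h1 : B.kumK h (G.cls p (Units.map (s : L →* L) x)) v =
      kum p (Units.map ((t⁻¹ : GQ) : Qbar →* Qbar) β) v := by
    apply B.kumK_cls h
    apply Units.ext
    rw [Units.val_pow_eq_pow_val, B.coe_toQ]
    change ((t⁻¹ : GQ) (β : Qbar)) ^ p = ι (s (x : L))
    rw [hs, ← map_pow, hβ']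
  have h2 : B.kumK h (G.cls p x) ⟨t * (v : GQ) * t⁻¹, hmem⟩ = kum p β (t * (v : GQ) * t⁻¹) :=
    B.kumK_cls h x β hβ _
  change B.kumK h ((T ⟨G.cls p x, hξ⟩ : ↥(G.EE p L (B.SK S ι))) : G.KP p L) v =
    mu p t⁻¹ (B.kumK h (G.cls p x) ⟨t * (v : GQ) * t⁻¹, hmem⟩)
  rw [hT, KPmap_cls, h1, h2, kum_conj p β t v hfix, mu_apply, map_inv]

theorem dQ_le_conj1 (hp2 : p ≠ 2) (h : B.Setup p S ι) [(G.fixG ι).Normal] (t : GQ) (s : L ≃+* L)
    (hs : ∀ x, ι (s x) = t⁻¹ (ι x))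
    (T : ↥(G.EE p L (B.SK S ι)) →ₗ[ZMod p] ↥(G.EE p L (B.SK S ι)))
    (hT : ∀ ξ, ((T ξ : ↥(G.EE p L (B.SK S ι))) : G.KP p L) = KPmap p s ξ) (Q : (ZMod p)[X]) :
    dQ Q T ≤ dQ Q (conj1 (LS S) (mu p) (G.fixG ι) t) := by
  haveI := (B.num_model hp2 S ι h).1
  exact dQ_le_of_injective Q T _ (kumE h) (kumE_injective h) (conj_kumE h t s hs T hT)

end Fermat.Agent.S56.Euler

end
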