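/-
S56 / Euler / OCBase : `dim ker Q(T)` is invariant under extension of the base field.  (Mathlib + Euler/Defs only.)

PROOF.  `T_K := T.baseChange K` on `K ⊗[F] V`.
 1. `aeval T_K (Q.map (algebraMap F K)) = (aeval T Q).baseChange K`  (induction on `Q` with `Polynomial.induction_on'`;
    `LinearMap.baseChange_add`, `LinearMap.baseChange_smul`, `LinearMap.baseChange_comp`/`baseChange_mul`/`baseChange_pow`, or the
    algebra homomorphism `Module.End.baseChangeHom`).
 2. `finrank K (ker (f.baseChange K)) = finrank F (ker f)` for `f : V →ₗ[F] V`, `V` finite dimensional.  Any route: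
    (a) rank-nullity on both sides + `Module.finrank_baseChange` + the same statement for ranges
        (`LinearMap.range_baseChange`, `Submodule.baseChange`, injectivity of `K ⊗ W → K ⊗ V` for a subspace `W` by flatness
        `Module.Flat.lTensor_preserves_injective_linearMap`);
    (b) choose bases: `V = ker f ⊕ C`, `f` injective on `C`; ...
    (c) matrices: `LinearMap.toMatrix`, `Matrix.rank` and minors.
-/
import Fermat.Agent.S56.Euler.Defs

set_option autoImplicit false

noncomputable section

namespace Fermat.Agent.S56.Euler

open Module Polynomial TensorProduct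

variable {F : Type} [Field F] {V : Type} [AddCommGroup V] [Module F V]

theorem aeval_baseChange (K : Type) [Field K] [Algebra F K] (T : V →ₗ[F] V) (Q : F[X]) :
    aeval (T.baseChange K) (Q.map (algebraMap F K)) = (aeval T Q).baseChange K := by
  rw [aeval_map_algebraMap]
  exact aeval_algHom_apply (Module.End.baseChangeHom F K V) T Q

theorem finrank_ker_baseChange (K : Type) [Field K] [Algebra F K] [FiniteDimensional F V]
    (f : V →ₗ[F] V) :
    finrank K ↥(LinearMap.ker (f.baseChange K)) = finrank F ↥(LinearMap.ker f) := by
  have e := LinearMap.tensorKerEquiv K K f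
  have h1 : finrank K ↥(LinearMap.ker (f.baseChange K)) = finrank K (K ⊗[F] ↥(LinearMap.ker f)) :=
    (LinearEquiv.finrank_eq e).symm
  rw [h1, Module.finrank_baseChange]

theorem dQ_baseChange (K : Type) [Field K] [Algebra F K] [FiniteDimensional F V]
    (Q : F[X]) (T : V →ₗ[F] V) :
    dQ (Q.map (algebraMap F K)) (T.baseChange K) = dQ Q T := by
  unfold dQ
  rw [aeval_baseChange, finrank_ker_baseChange]

end Fermat.Agent.S56.Euler

end
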