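/-
S56 / Euler / OCEig : over an algebraically closed field, `dim ker Q(T) = ∑_{α root of Q} mult_α (charpoly T)` for `T ^ n = 1`,
`n` invertible, `Q ∣ X ^ n - 1`.   (Mathlib + Euler/Defs only.)

PROOF.
 1. `Q ≠ 0`, `Q` separable (`Polynomial.separable_X_pow_sub_C (1 : K) hn one_ne_zero`, `Separable.of_mul_left`), so
    `Q = C c * ∏_{α ∈ Q.roots.toFinset} (X - C α)` (`IsAlgClosed.splits`, `Polynomial.nodup_roots`,
    `Polynomial.Splits.eq_prod_roots`/`C_leadingCoeff_mul_prod_multiset_X_sub_C`), `c ≠ 0`.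
 2. by induction over a finset `s` of scalars: `finrank ker (∏_{α ∈ s} (X - C α))(T) = ∑_{α ∈ s} finrank ker (T - α)`:
    `X - C α` is coprime to `∏_{β ∈ s, β ≠ α} (X - C β)` (`Polynomial.isCoprime_X_sub_C_of_isUnit_sub`/`pairwise_coprime_X_sub_C`,
    `IsCoprime.prod_right`), `Polynomial.sup_ker_aeval_eq_ker_aeval_mul_of_coprime`,
    `Polynomial.disjoint_ker_aeval_of_isCoprime`, `Submodule.finrank_sup_add_finrank_inf_eq`.
 3. `ker (T - α) = Module.End.eigenspace T α = Module.End.maxGenEigenspace T α`: `T` is semisimple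
    (`Module.End.isSemisimple_of_squarefree_aeval_eq_zero` with `X ^ n - 1`, squarefree since separable:
    `Polynomial.Separable.squarefree`), `Module.End.IsFinitelySemisimple.maxGenEigenspace_eq_eigenspace`
    (`IsSemisimple.isFinitelySemisimple`).
 4. `LinearMap.finrank_maxGenEigenspace_eq`.
-/
import Fermat.Agent.S56.Euler.Defs

set_option autoImplicit false

noncomputable section

namespace Fermat.Agent.S56.Euler

open Module Polynomial

theorem OCEig_finrank_ker_prod {K : Type} [Field K] {V : Type} [AddCommGroup V] [Module K V]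
    [FiniteDimensional K V] (T : V →ₗ[K] V) (s : Finset K) :
    finrank K ↥(LinearMap.ker (aeval T (∏ α ∈ s, (X - C α))))
      = ∑ α ∈ s, finrank K ↥(LinearMap.ker (aeval T (X - C α))) := by
  classical
  induction s using Finset.induction_on with
  | empty =>
    rw [Finset.prod_empty, Finset.sum_empty, map_one]
    have : LinearMap.ker (1 : Module.End K V) = ⊥ := LinearMap.ker_id
    rw [this, finrank_bot]
  | insert a s ha ih =>
    rw [Finset.prod_insert ha, Finset.sum_insert ha, ← ih]
    have hcop : IsCoprime (X - C a) (∏ α ∈ s, (X - C α)) :=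
      IsCoprime.prod_right (fun β hβ => Polynomial.isCoprime_X_sub_C_of_isUnit_sub
        (sub_ne_zero.mpr (by rintro rfl; exact ha hβ)).isUnit)
    rw [← Polynomial.sup_ker_aeval_eq_ker_aeval_mul_of_coprime T hcop]
    have hd := Polynomial.disjoint_ker_aeval_of_isCoprime T hcop
    have h := Submodule.finrank_sup_add_finrank_inf_eq (LinearMap.ker (aeval T (X - C a)))
      (LinearMap.ker (aeval T (∏ α ∈ s, (X - C α))))
    rw [hd.eq_bot, finrank_bot, add_zero] at h
    exact h

open Classical in
theorem dQ_eq_sum_rootMultiplicity {K : Type} [Field K] [IsAlgClosed K] {V : Type}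
    [AddCommGroup V] [Module K V] [FiniteDimensional K V] {n : ℕ} (hn : (n : K) ≠ 0)
    {Q Qc : K[X]} (hQ : Q * Qc = X ^ n - 1) (T : V →ₗ[K] V) (hT : T ^ n = 1) :
    dQ Q T = ∑ α ∈ Q.roots.toFinset, T.charpoly.rootMultiplicity α := by
  have hsepX : (X ^ n - 1 : K[X]).Separable := by
    have := Polynomial.separable_X_pow_sub_C (1 : K) hn one_ne_zero
    simpa using this
  have hQsep : Q.Separable := by
    rw [← hQ] at hsepX
    exact hsepX.of_mul_left
  have hQ0 : Q ≠ 0 := hQsep.ne_zero
  have hnd : Q.roots.Nodup := Polynomial.nodup_roots hQsep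
  have hprod : ∏ α ∈ Q.roots.toFinset, (X - C α) = (Q.roots.map (fun α => X - C α)).prod := by
    rw [Finset.prod, Multiset.toFinset_val, hnd.dedup]
  have hfac : Q = C Q.leadingCoeff * ∏ α ∈ Q.roots.toFinset, (X - C α) := by
    rw [hprod]
    exact (IsAlgClosed.splits Q).eq_prod_roots
  have hlc : Q.leadingCoeff ≠ 0 := Polynomial.leadingCoeff_ne_zero.mpr hQ0
  have hker : LinearMap.ker (aeval T Q)
      = LinearMap.ker (aeval T (∏ α ∈ Q.roots.toFinset, (X - C α))) := by
    conv_lhs => rw [hfac]
    rw [map_mul, aeval_C, Algebra.algebraMap_eq_smul_one, smul_mul_assoc, one_mul]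
    exact LinearMap.ker_smul _ _ hlc
  have hss : Module.End.IsSemisimple T := by
    refine Module.End.isSemisimple_of_squarefree_aeval_eq_zero hsepX.squarefree ?_
    simp [hT]
  unfold dQ
  rw [hker, OCEig_finrank_ker_prod]
  refine Finset.sum_congr rfl fun α _ => ?_
  rw [← LinearMap.finrank_maxGenEigenspace_eq, hss.isFinitelySemisimple.maxGenEigenspace_eq_eigenspace,
    Module.End.eigenspace_def]
  rw [map_sub, aeval_X, aeval_C, Algebra.algebraMap_eq_smul_one]

end Fermat.Agent.S56.Euler

end
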