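/-
S56 / Euler / OCChar : `dim ker Q(T)` IS DETERMINED BY THE CHARACTERISTIC POLYNOMIAL (for `T ^ n = 1`, `n` invertible).
Pure linear algebra (Mathlib + Euler/Defs + Euler/OC).

`nuQ Q f` := number of roots of `f` (with multiplicity, in an algebraic closure `K` of `F`) which are roots of `Q`.
It is additive in `f`, and `dQ Q T = nuQ Q (charpoly T)`.

PROOF of `dQ_eq_nuQ`.  `K := AlgebraicClosure F`, `T_K := T.baseChange K` on `K ⊗[F] V`.
 1. `aeval T_K (Q.map (algebraMap F K)) = (aeval T Q).baseChange K`  (induction on `Q`; `LinearMap.baseChange_add/smul/mul/pow`,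
    or the algebra homomorphism `Module.End.baseChangeHom`).
 2. `finrank K (ker (f.baseChange K)) = finrank F (ker f)` : rank-nullity on both sides + `Module.finrank_baseChange` +
    `finrank K (range (f.baseChange K)) = finrank F (range f)` (`LinearMap.range_baseChange`/`Submodule.baseChange`, or: choose
    a complement; or `LinearMap.toMatrix` + `Matrix.rank_map`-type statements; or flatness `Module.Flat` : `ker` commutes with
    base change, `LinearMap.ker_baseChange`-like lemmas; any route is fine).
 3. over `K`: `Q_K = c * ∏_{α ∈ roots} (X - α)` with DISTINCT roots (`Q ∣ X^n - 1` separable: `Separable.of_dvd`/`Separable.map`,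
    `Polynomial.nodup_roots`, `IsAlgClosed.splits`), the factors are pairwise coprime, so
    `ker Q_K(T_K) = ⨁_α ker (T_K - α)` (`Polynomial.sup_ker_aeval_eq_ker_aeval_mul_of_coprime`,
    `Polynomial.disjoint_ker_aeval_of_isCoprime`, induction over the finset of roots), dimensions add.
 4. `ker (T_K - α) = maxGenEigenspace T_K α`: `T_K` is semisimple (`Module.End.isSemisimple_of_squarefree_aeval_eq_zero` with
    `X^n - 1`), `Module.End.IsFinitelySemisimple.maxGenEigenspace_eq_eigenspace`.
 5. `LinearMap.finrank_maxGenEigenspace_eq : finrank (maxGenEigenspace φ μ) = φ.charpoly.rootMultiplicity μ` and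
    `LinearMap.charpoly_baseChange`.
-/
import Fermat.Agent.S56.Euler.OC
import Fermat.Agent.S56.Euler.OCBase
import Fermat.Agent.S56.Euler.OCEig

set_option autoImplicit false

noncomputable section

namespace Fermat.Agent.S56.Euler

open Module Polynomial

variable {F : Type} [Field F] {V : Type} [AddCommGroup V] [Module F V]

open Classical in
/-- number of roots of `f`, with multiplicity, among the roots of `Q` (in an algebraic closure). -/
def nuQ (Q f : F[X]) : ℕ :=
  ∑ α ∈ (Q.map (algebraMap F (AlgebraicClosure F))).roots.toFinset,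
    (f.map (algebraMap F (AlgebraicClosure F))).rootMultiplicity α

/-- `Polynomial.rootMultiplicity_mul`, `Polynomial.map_mul`, `Finset.sum_add_distrib`. -/
theorem nuQ_mul (Q : F[X]) {f g : F[X]} (hf : f ≠ 0) (hg : g ≠ 0) :
    nuQ Q (f * g) = nuQ Q f + nuQ Q g := by
  unfold nuQ
  rw [← Finset.sum_add_distrib]
  refine Finset.sum_congr rfl fun α _ => ?_
  rw [Polynomial.map_mul]
  refine rootMultiplicity_mul (mul_ne_zero ?_ ?_)
  · exact (Polynomial.map_ne_zero_iff (algebraMap F (AlgebraicClosure F)).injective).2 hf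
  · exact (Polynomial.map_ne_zero_iff (algebraMap F (AlgebraicClosure F)).injective).2 hg

theorem nuQ_one (Q : F[X]) : nuQ Q 1 = 0 := by
  unfold nuQ
  refine Finset.sum_eq_zero fun α _ => ?_
  rw [Polynomial.map_one, ← C_1, rootMultiplicity_C]

theorem nuQ_prod (Q : F[X]) {ι : Type} (s : Finset ι) (f : ι → F[X]) (hf : ∀ i ∈ s, f i ≠ 0) :
    nuQ Q (∏ i ∈ s, f i) = ∑ i ∈ s, nuQ Q (f i) := by
  classical
  induction s using Finset.induction_on with
  | empty => rw [Finset.prod_empty, Finset.sum_empty, nuQ_one]
  | insert i s hi ih =>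
    rw [Finset.prod_insert hi, Finset.sum_insert hi,
      nuQ_mul Q (hf i (Finset.mem_insert_self _ _))
        (Finset.prod_ne_zero_iff.2 fun j hj => hf j (Finset.mem_insert_of_mem hj)),
      ih fun j hj => hf j (Finset.mem_insert_of_mem hj)]

/-- `rootMultiplicity α (X - C b) = if α = b then 1 else 0` (`Polynomial.rootMultiplicity_X_sub_C`), and `algebraMap a` is a
root of `Q.map` iff `Q.eval a = 0`. -/
theorem nuQ_X_sub_C {Q : F[X]} (hQ : Q ≠ 0) (a : F) : nuQ Q (X - C a) = delta Q a := by
  classical
  unfold nuQ delta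
  have hQ' : Q.map (algebraMap F (AlgebraicClosure F)) ≠ 0 :=
    (Polynomial.map_ne_zero_iff (algebraMap F (AlgebraicClosure F)).injective).2 hQ
  have h1 : ∀ α : AlgebraicClosure F,
      ((X - C a : F[X]).map (algebraMap F (AlgebraicClosure F))).rootMultiplicity α =
        if α = algebraMap F (AlgebraicClosure F) a then 1 else 0 := by
    intro α
    rw [Polynomial.map_sub, Polynomial.map_X, Polynomial.map_C, rootMultiplicity_X_sub_C]
  simp only [h1]
  rw [Finset.sum_ite_eq']
  have h2 : algebraMap F (AlgebraicClosure F) a ∈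
      (Q.map (algebraMap F (AlgebraicClosure F))).roots.toFinset ↔ Q.eval a = 0 := by
    rw [Multiset.mem_toFinset, mem_roots hQ', IsRoot.def, eval_map_algebraMap,
      aeval_algebraMap_apply, _root_.map_eq_zero, coe_aeval_eq_eval]
  by_cases h : Q.eval a = 0
  · rw [if_pos (h2.2 h), if_pos h]
  · rw [if_neg (fun h' => h (h2.1 h')), if_neg h]

/-- **MAIN LEMMA.** -/
theorem dQ_eq_nuQ [FiniteDimensional F V] {n : ℕ} (hn : (n : F) ≠ 0) {Q Qc : F[X]}
    (hQ : Q * Qc = X ^ n - 1) (T : V →ₗ[F] V) (hT : T ^ n = 1) : dQ Q T = nuQ Q T.charpoly := by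
  rw [← dQ_baseChange (AlgebraicClosure F) Q T]
  have hn' : ((n : ℕ) : AlgebraicClosure F) ≠ 0 := by
    rw [← map_natCast (algebraMap F (AlgebraicClosure F))]
    exact (_root_.map_ne_zero _).2 hn
  have hQ' : Q.map (algebraMap F (AlgebraicClosure F)) * Qc.map (algebraMap F (AlgebraicClosure F))
      = X ^ n - 1 := by
    rw [← Polynomial.map_mul, hQ]; simp
  have hT' : (T.baseChange (AlgebraicClosure F)) ^ n = 1 := by
    rw [← LinearMap.baseChange_pow, hT]
    exact LinearMap.baseChange_id (R := F) (A := AlgebraicClosure F) (M := V)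
  rw [dQ_eq_sum_rootMultiplicity hn' hQ' _ hT', LinearMap.charpoly_baseChange]
  rfl

end Fermat.Agent.S56.Euler

end
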