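/-
S56 / Euler / PermInv : on the `D`-invariant functions on `G/N` the operators `R_t` and `R_{t⁻¹}` have the same `dQ`
(a permutation matrix and its inverse = its transpose).   Pure algebra (Mathlib + Euler/Defs + Euler/OC).

PROOF.  `Ω := MulAction.orbitRel.Quotient D (G ⧸ N)` (finite), `π_t : Ω → Ω` induced by `w ↦ w * t` (well defined by `smul_mul_coe`:
 right multiplication commutes with the left action), `π_t ∘ π_{t⁻¹} = id`.
 1. `E : (Ω → 𝔽) ≃ₗ H0 (rsub (Fun triv (G/N)) D)`, `f ↦ f ∘ Quotient.mk`  (a function on `G/N` is `D`-invariant iff it is constant on the orbits: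
    `(Fun triv _ d φ)(w) = φ(d⁻¹ • w)`; `Quotient.lift`), and `E (f ∘ π_t) = R_t (E f)`.  So by `dQ_conj`:
    `dQ Q (onH0 D R_t) = dQ Q (LinearMap.funLeft 𝔽 𝔽 π_t)`.
 2. for a permutation `π` of a finite set `Ω`: `dQ Q (funLeft π) = dQ Q (funLeft π⁻¹)`.  The symmetric pairing `⟨f, g⟩ = ∑_ω f ω * g ω` is perfect and
    `⟨funLeft π f, g⟩ = ⟨f, funLeft π⁻¹ g⟩` (`Equiv.sum_comp`), hence `⟨P(funLeft π) f, g⟩ = ⟨f, P(funLeft π⁻¹) g⟩` for all polynomials `P`:
    `P(funLeft π⁻¹)` is the transpose of `P(funLeft π)`.  A matrix and its transpose have the same rank (`Matrix.rank_transpose`, with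
    `LinearMap.toMatrix'`; `LinearMap.toMatrix' (funLeft π)` is a permutation matrix; or `LinearMap.finrank_range_dualMap_eq_finrank_range` as in
    `EA.FinalB_finrank_ker_dualMap`), so the kernels have the same dimension (rank-nullity).
-/
import Fermat.Agent.S56.Euler.OC

set_option autoImplicit false

noncomputable section

namespace Fermat.Agent.S56.Euler

open Fermat.Agent.S55 Module Polynomial

/-- a permutation of a finite set is conjugate to its inverse (same cycle type), hence so are the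
operators `f ↦ f ∘ π`. -/
theorem PermInv_dQ_funLeft {F : Type} [Field F] {Ω : Type} [Finite Ω] (π : Equiv.Perm Ω)
    (Q : F[X]) :
    dQ Q (LinearMap.funLeft F F (π⁻¹ : Equiv.Perm Ω)) = dQ Q (LinearMap.funLeft F F π) := by
  classical
  have := Fintype.ofFinite Ω
  have hconj : IsConj π π⁻¹ :=
    Equiv.Perm.isConj_iff_cycleType_eq.2 (Equiv.Perm.cycleType_inv π).symm
  obtain ⟨c, hc⟩ := isConj_iff.1 hconj
  refine dQ_conj Q _ _ (LinearEquiv.funCongrLeft F F c) ?_
  intro f
  ext w
  show f ((π⁻¹ : Equiv.Perm Ω) (c w)) = f (c (π w))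
  rw [← hc]
  simp

section

variable {G : Type} [Group G] (N : Subgroup G) [N.Normal] (D : Subgroup G)

/-- the double cosets `D \ G / N`. -/
abbrev PermInv_Om : Type := MulAction.orbitRel.Quotient D (G ⧸ N)

/-- right multiplication by `t` on `D \ G / N`. -/
def PermInv_pi (t : G) : PermInv_Om N D → PermInv_Om N D :=
  Quotient.map' (fun w : G ⧸ N => w * (t : G ⧸ N)) (by
    rintro a b ⟨d, rfl⟩
    exact ⟨d, smul_mul_coe N (d : G) t b⟩)

theorem PermInv_pi_mk (t : G) (w : G ⧸ N) :
    PermInv_pi N D t (Quotient.mk'' w) = Quotient.mk'' (w * (t : G ⧸ N)) := rfl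

theorem PermInv_pi_pi (s t : G) (hst : t * s = 1) (ω : PermInv_Om N D) :
    PermInv_pi N D s (PermInv_pi N D t ω) = ω := by
  induction ω using Quotient.inductionOn' with
  | h w =>
    rw [PermInv_pi_mk, PermInv_pi_mk, mul_assoc, ← QuotientGroup.mk_mul, hst, QuotientGroup.mk_one,
      mul_one]

/-- right multiplication by `t` as a permutation. -/
def PermInv_perm (t : G) : Equiv.Perm (PermInv_Om N D) where
  toFun := PermInv_pi N D t
  invFun := PermInv_pi N D t⁻¹
  left_inv := PermInv_pi_pi N D t⁻¹ t (mul_inv_cancel t)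
  right_inv := PermInv_pi_pi N D t t⁻¹ (inv_mul_cancel t)

variable (F : Type) [Field F]

/-- functions on `D \ G / N` are the `D`-invariant functions on `G / N`. -/
def PermInv_E : (PermInv_Om N D → F) →ₗ[F]
    ↥(H0 (rsub (Fun (Representation.trivial F G F) (G ⧸ N)) D)) where
  toFun f := ⟨fun w => f (Quotient.mk'' w), fun d => by
    ext w
    show f (Quotient.mk'' ((d : G)⁻¹ • w)) = f (Quotient.mk'' w)
    congr 1
    exact Quotient.sound' ⟨d⁻¹, rfl⟩⟩
  map_add' := fun _ _ => rfl
  map_smul' := fun _ _ => rfl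

theorem PermInv_E_bijective : Function.Bijective (PermInv_E N D F) := by
  constructor
  · intro f g hfg
    funext ω
    induction ω using Quotient.inductionOn' with
    | h w => exact congrFun (congrArg Subtype.val hfg) w
  · rintro ⟨φ, hφ⟩
    refine ⟨Quotient.lift φ ?_, ?_⟩
    · rintro a b ⟨d, rfl⟩
      have h1 := congrFun (hφ d⁻¹) b
      have h2 : φ (((d⁻¹ : D) : G)⁻¹ • b) = φ b := h1
      rw [← h2]
      congr 1
      simp only [InvMemClass.coe_inv, inv_inv]
      rfl
    · rfl

end

theorem dQ_onH0_rt_inv {F : Type} [Field F] {G : Type} [Group G] (N : Subgroup G) [N.Normal]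
    [Finite (G ⧸ N)] (D : Subgroup G) (t : G) (Q : F[X]) :
    dQ Q (onH0 (ρ := Fun (Representation.trivial F G F) (G ⧸ N)) D (rt F F N t⁻¹)
        (rt_comm _ N t⁻¹)) =
      dQ Q (onH0 (ρ := Fun (Representation.trivial F G F) (G ⧸ N)) D (rt F F N t)
        (rt_comm _ N t)) := by
  classical
  have : Finite (PermInv_Om N D) := Quotient.finite _
  have key : ∀ s : G, dQ Q (onH0 (ρ := Fun (Representation.trivial F G F) (G ⧸ N)) D (rt F F N s)
      (rt_comm _ N s)) = dQ Q (LinearMap.funLeft F F (PermInv_perm N D s)) := by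
    intro s
    symm
    refine dQ_conj Q _ _ (LinearEquiv.ofBijective (PermInv_E N D F) (PermInv_E_bijective N D F)) ?_
    intro f
    rfl
  rw [key, key]
  exact PermInv_dQ_funLeft (PermInv_perm N D t) Q

end Fermat.Agent.S56.Euler

end
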