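/-
S56 / Euler / UnitsTarget : (UNITS) = what module S56/Units (owner helper73) owes to EULER.
The owner replaces the `sorry` by ONE call of the export of his module (add your import here).

`(L, ι)` a number field with an embedding, `N = fixG ι` NORMAL in `GQ`, `μ_p ⊆ L`, `g ∈ GQ` of order prime to `p`
mod `N`, `s` the automorphism of `L` induced by `g`.  `T` = the operator induced by `s` on the `Σ`-units mod `p`.
`R_g` = right translation by `g` on `Fun(GQ/N, 𝔽_p)`; on the `D`-invariant functions (= functions on `D\GQ/N`) it is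
the permutation operator of right multiplication by `g`.   Then

   charpoly(T) * (X - 1) = (X - ω(g)) * ∏_{q ∈ Σ} charpoly(R_g | Fun(D_q\GQ/N)) * charpoly(R_g | Fun(<c>\GQ/N)).
-/
import Fermat.Agent.S56.Euler.Defs
import Fermat.Agent.S55.B.Setup
import Fermat.Agent.S56.Units.BR4

set_option autoImplicit false

noncomputable section

namespace Fermat.Agent.S56.Euler

open Fermat.Agent.S55 Fermat.Agent.S55.Places ExtCitation Module Polynomial

variable {p : ℕ} [Fact p.Prime]

/-- `R_g` on the `D`-invariant functions on `GQ/N`. -/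
abbrev permOp (p : ℕ) [Fact p.Prime] (N : Subgroup GQ) [N.Normal] (D : Subgroup GQ) (g : GQ) :
    ↥(H0 (rsub (Fun (Representation.trivial (ZMod p) GQ (ZMod p)) (GQ ⧸ N)) D)) →ₗ[ZMod p]
      ↥(H0 (rsub (Fun (Representation.trivial (ZMod p) GQ (ZMod p)) (GQ ⧸ N)) D)) :=
  onH0 D (rt (ZMod p) (ZMod p) N g) (rt_comm _ N g)

/-- **(UNITS)**. -/
theorem units_charpoly (hp2 : p ≠ 2) (Sg : Finset Nat.Primes) {L : Type} [Field L] [NumberField L]
    (ι : L →+* Qbar) (h : B.Setup p Sg ι) [(G.fixG ι).Normal] [Finite (GQ ⧸ G.fixG ι)]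
    (g : GQ) (s : L ≃+* L) (hs : ∀ x, ι (s x) = g (ι x))
    (n : ℕ) (hn : g ^ n ∈ G.fixG ι) (hpn : ¬ p ∣ n)
    [FiniteDimensional (ZMod p) ↥(G.EE p L (B.SK Sg ι))]
    (T : ↥(G.EE p L (B.SK Sg ι)) →ₗ[ZMod p] ↥(G.EE p L (B.SK Sg ι)))
    (hT : ∀ ξ, ((T ξ : ↥(G.EE p L (B.SK Sg ι))) : G.KP p L) = KPmap p s ξ) :
    T.charpoly * (X - 1) =
      (X - C ((cycloChar p g : (ZMod p)ˣ) : ZMod p)) *
        (∏ q ∈ Sg, (permOp p (G.fixG ι) (DqP q) g).charpoly) *
        (permOp p (G.fixG ι) (Subgroup.zpowers complexConjugation) g).charpoly :=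
  Units.units_charpoly_bridge Sg ι h g s hs T hT

end Fermat.Agent.S56.Euler

end
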