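/-
S56 / Euler / Arith : `CoreHyp` for the arithmetic datum (assembly).
-/
import Fermat.Agent.S56.Euler.Core2
import Fermat.Agent.S56.Euler.OCChar
import Fermat.Agent.S56.Euler.KumE
import Fermat.Agent.S56.Euler.PermInv
import Fermat.Agent.S56.Euler.Aut
import Fermat.Agent.S56.Euler.ArithS2
import Fermat.Agent.S56.Euler.UnitsTarget

set_option autoImplicit false
set_option linter.style.haveILetI false

noncomputable section

namespace Fermat.Agent.S56.Euler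

open Fermat.Agent.S55 Fermat.Agent.S55.Places ExtCitation Module Polynomial

theorem pow_eq_one_of_coe {F V : Type} [Field F] [AddCommGroup V] [Module F V] (W : Submodule F V)
    (A : V →ₗ[F] V) (T : W →ₗ[F] W) (hT : ∀ ξ, ((T ξ : W) : V) = A ξ) (n : ℕ) (hA : A ^ n = 1) :
    T ^ n = 1 := by
  have key : ∀ (m : ℕ) (ξ : W), (((T ^ m) ξ : W) : V) = (A ^ m) ξ := by
    intro m
    induction m with
    | zero => intro ξ; rfl
    | succ m ih =>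
      intro ξ
      rw [pow_succ', pow_succ', Module.End.mul_apply, Module.End.mul_apply, hT, ih]
  ext ξ
  rw [key, hA]; rfl

variable {p : ℕ} [Fact p.Prime] {L : Type} [Field L] [NumberField L]

/-- (UNITS) in `dQ`-form. -/
theorem units_dQ (hp2 : p ≠ 2) (Sg : Finset Nat.Primes) (ι : L →+* Qbar) (h : B.Setup p Sg ι)
    [(G.fixG ι).Normal] [Finite (GQ ⧸ G.fixG ι)] (g : GQ) (s : L ≃+* L)
    (hs : ∀ x, ι (s x) = g (ι x)) (n : ℕ) (hn : g ^ n ∈ G.fixG ι) (hpn : ¬ p ∣ n)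
    (T : ↥(G.EE p L (B.SK Sg ι)) →ₗ[ZMod p] ↥(G.EE p L (B.SK Sg ι)))
    (hT : ∀ ξ, ((T ξ : ↥(G.EE p L (B.SK Sg ι))) : G.KP p L) = KPmap p s ξ)
    (Q Qc : (ZMod p)[X]) (hQ : Q * Qc = X ^ n - 1) :
    dQ Q T + delta Q 1 = delta Q ((cycloChar p g : (ZMod p)ˣ) : ZMod p) +
      ∑ q ∈ Sg, dQ Q (permOp p (G.fixG ι) (DqP q) g) +
      dQ Q (permOp p (G.fixG ι) (Subgroup.zpowers complexConjugation) g) := by
  haveI : FiniteDimensional (ZMod p) ↥(G.EE p L (B.SK Sg ι)) :=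
    (G.finrank_EE p L hp2 (B.exists_zeta_of_le ι h.hω) (B.SK Sg ι) (B.finite_SK ι Sg)).1
  have hn0 : (n : ZMod p) ≠ 0 := natCast_ne_zero_of_not_dvd hpn
  have hQ0 : Q ≠ 0 := by
    rintro rfl
    rw [zero_mul] at hQ
    have hn1 : n ≠ 0 := by rintro rfl; exact hpn (dvd_zero p)
    exact (Polynomial.X_pow_sub_C_ne_zero (Nat.pos_of_ne_zero hn1) (1 : ZMod p)) (by simpa using hQ.symm)
  have hu := congrArg (nuQ Q) (units_charpoly hp2 Sg ι h g s hs n hn hpn T hT)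
  have hX1 : (X - 1 : (ZMod p)[X]) = X - C 1 := by simp
  have hperm : ∀ D : Subgroup GQ, (permOp p (G.fixG ι) D g) ^ n = 1 := fun D =>
    pow_eq_one_of_coe _ (rt (ZMod p) (ZMod p) (G.fixG ι) g) _ (fun _ => rfl) n
      (rt_pow_eq_one (G.fixG ι) hn)
  have hTn : T ^ n = 1 := pow_eq_one_of_coe _ (KPmap p s) T hT n (KPmap_pow_eq_one ι g s hs n hn)
  rw [nuQ_mul Q (LinearMap.charpoly_monic T).ne_zero (by rw [hX1]; exact X_sub_C_ne_zero 1),
    nuQ_mul Q (mul_ne_zero (X_sub_C_ne_zero _) (Finset.prod_ne_zero_iff.2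
      (fun q _ => (LinearMap.charpoly_monic _).ne_zero))) (LinearMap.charpoly_monic _).ne_zero,
    nuQ_mul Q (X_sub_C_ne_zero _) (Finset.prod_ne_zero_iff.2
      (fun q _ => (LinearMap.charpoly_monic _).ne_zero)),
    nuQ_prod Q _ _ (fun q _ => (LinearMap.charpoly_monic _).ne_zero), hX1, nuQ_X_sub_C hQ0,
    nuQ_X_sub_C hQ0, ← dQ_eq_nuQ hn0 hQ T hTn, ← dQ_eq_nuQ hn0 hQ _ (hperm _)] at hu
  rw [hu]
  congr 2
  exact Finset.sum_congr rfl (fun q _ => (dQ_eq_nuQ hn0 hQ _ (hperm _)).symm)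

/-- transport along `𝒜.mu = mu p`. -/
theorem dQ_op1_congr_mu (Sg : Finset Nat.Primes) (N : Subgroup GQ) [N.Normal] (t : GQ)
    (Q : (ZMod p)[X]) (μ' : Representation (ZMod p) GQ (ZMod p)) (hμ : μ' = mu p) :
    dQ Q (op1 (LS Sg) (ρ := Fun μ' (GQ ⧸ N)) (rt (ZMod p) (ZMod p) N t) (rt_comm μ' N t)) =
      dQ Q (op1 (LS Sg) (ρ := Fun (mu p) (GQ ⧸ N)) (rt (ZMod p) (ZMod p) N t)
        (rt_comm (mu p) N t)) := by
  subst hμ; rfl

/-- **`CoreHyp` for the arithmetic datum.** -/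
theorem coreHyp (hp2 : p ≠ 2) (Sg : Finset Nat.Primes) (hpS : pPrime p ∈ Sg) (ι : L →+* Qbar)
    (h : B.Setup p Sg ι) [(G.fixG ι).Normal] (hgood : G.IsGood p L (B.SK Sg ι)) :
    CoreHyp (arithDatum p Sg hpS) (G.fixG ι) complexConjugation where
  s2 := s2_JU_eq_zero hp2 Sg hpS ι h hgood
  h1 := by
    intro t n hn ht Q Qc hQ
    haveI : Finite (GQ ⧸ G.fixG ι) := (LS Sg).finite_quotient h.hS
    obtain ⟨s, hs⟩ := exists_aut ι t⁻¹
    have ht' : t⁻¹ ^ n ∈ G.fixG ι := by rw [inv_pow]; exact (G.fixG ι).inv_mem ht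
    have h1 := units_dQ hp2 Sg ι h t⁻¹ s hs n ht' hn
      ((KPmap p s).restrict (KPmap_mem_EE ι Sg t⁻¹ s hs)) (fun _ => rfl) Q Qc hQ
    have h2 := dQ_le_conj1 hp2 h t s hs
      ((KPmap p s).restrict (KPmap_mem_EE ι Sg t⁻¹ s hs)) (fun _ => rfl) Q
    haveI : Smooth (LS Sg) (mu p) := by
      have := (arithDatum p Sg hpS).smooth_mu
      rwa [arithDatum_mu] at this
    have h3 := dQ_op1_rt_inv (LS Sg) (mu p) (G.fixG ι) h.hS t Q
    have h4 := dQ_op1_congr_mu Sg (G.fixG ι) t⁻¹ Q (arithDatum p Sg hpS).mu (arithDatum_mu p Sg hpS)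
    have h5 : ∀ D : Subgroup GQ, dQ Q (permOp p (G.fixG ι) D t⁻¹) = dQ Q (permOp p (G.fixG ι) D t) :=
      fun D => dQ_onH0_rt_inv (G.fixG ι) D t Q
    rw [h5, Finset.sum_congr rfl (fun q _ => h5 (DqP q)), map_inv] at h1
    have h6 : ∑ v : ↥Sg, dQ Q (permOp p (G.fixG ι) (DqP v.1) t) =
        ∑ q ∈ Sg, dQ Q (permOp p (G.fixG ι) (DqP q) t) :=
      Finset.sum_coe_sort Sg (fun q => dQ Q (permOp p (G.fixG ι) (DqP q) t))
    show delta Q (((cycloChar p t)⁻¹ : (ZMod p)ˣ) : ZMod p) +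
        ∑ v : ↥Sg, dQ Q (permOp p (G.fixG ι) (DqP v.1) t) +
        dQ Q (permOp p (G.fixG ι) (Subgroup.zpowers complexConjugation) t) ≤
      dQ Q (op1 (LS Sg) (ρ := Fun (arithDatum p Sg hpS).mu (GQ ⧸ G.fixG ι))
        (rt (ZMod p) (ZMod p) (G.fixG ι) t⁻¹) (rt_comm _ (G.fixG ι) t⁻¹)) + delta Q 1
    rw [h4, h3, h6, ← h1]
    omega

end Fermat.Agent.S56.Euler

end
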