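/-
S56 / Euler / Bridge : from the dual form `e(ρ) = χ(ρ') + dim ρ^c` (`EA.eulerInv`) to `e_M(ρ) = χ(ρ) + dim ρ^{c=-1}` (`EA.eulerInvM`):
      `e_M(ρ) = e(ρ')`      (`ρ'' ≅ ρ`,  `(ρ')^c ≅ (ρ^{c=-1})^*` because `ω(c) = -1`).

PROOFS.
* `finrank_H0_dualT_invol`: `φ ∈ H0 (rsub (dualT ρ) (zpowers c))` iff `dualT ρ c φ = φ` (invariance under a generator: `Subgroup.mem_zpowers_iff`,
  or: the stabiliser of `φ` is a subgroup containing `c`); `dualT ρ c φ = ω(c) • φ ∘ ρ(c⁻¹) = - φ ∘ ρ(c)` (`c⁻¹ = c`;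
  `Representation.twist_apply_apply`, `Representation.dual_apply`, `Module.Dual.transpose_apply`, exactly as `hmap` in the proof of
  `EA.le_finrank_ker_dualT`, EA/FinalB.lean).  So `H0 = ker ((ρ c + 1).dualMap)` as submodules of `Dual X`, and
  `EA.FinalB_finrank_ker_dualMap : finrank (ker f.dualMap) = finrank (ker f)`.
* `dualT_trivial_on`: as `EA.dualT_ad0_trivial_on` (EA/FinalA.lean).
* `Fun_quot_trivial_on`: `(Fun ρ (G/U) n f)(w) = ρ n (f (n⁻¹ • w)) = f (n⁻¹ • w)`, `n⁻¹ • x U = x (x⁻¹ n⁻¹ x) U = x U`.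
-/
import Fermat.Agent.S56.Euler.Dual
import Fermat.Agent.S56.EA.Final

set_option autoImplicit false
set_option linter.style.haveILetI false

noncomputable section

namespace Fermat.Agent.S56.Euler

open Fermat.Agent.S55 Module

variable {p : ℕ} [Fact p.Prime] {𝒜 : Datum p}

theorem finrank_H0_dualT_invol (c : 𝒜.G) (hc : c * c = 1) (hcω : 𝒜.ω c = -1) {X : Type}
    [AddCommGroup X] [Module (ZMod p) X] [FiniteDimensional (ZMod p) X]
    (ρ : Representation (ZMod p) 𝒜.G X) :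
    finrank (ZMod p) ↥(H0 (rsub (𝒜.dualT ρ) (Subgroup.zpowers c))) =
      finrank (ZMod p) ↥(LinearMap.ker (ρ c + 1)) := by
  have hcinv : c⁻¹ = c := inv_eq_of_mul_eq_one_left hc
  have hmap : ∀ φ : Module.Dual (ZMod p) X, 𝒜.dualT ρ c φ = - (ρ c).dualMap φ := by
    intro φ
    ext x
    rw [Representation.twist_apply_apply, hcω, Representation.dual_apply, hcinv]
    simp [Module.Dual.transpose_apply]
  have hset : H0 (rsub (𝒜.dualT ρ) (Subgroup.zpowers c)) = LinearMap.ker ((ρ c + 1).dualMap) := by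
    ext φ
    rw [LinearMap.mem_ker]
    constructor
    · intro h
      have h1 : 𝒜.dualT ρ c φ = φ := h ⟨c, Subgroup.mem_zpowers c⟩
      rw [hmap] at h1
      ext x
      have h2 := LinearMap.congr_fun h1 x
      simp only [LinearMap.neg_apply, LinearMap.dualMap_apply] at h2
      simp only [LinearMap.dualMap_apply, LinearMap.add_apply, Module.End.one_apply, map_add,
        LinearMap.zero_apply]
      rw [← h2]; ring
    · intro h
      have h1 : 𝒜.dualT ρ c φ = φ := by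
        rw [hmap]
        ext x
        have h2 := LinearMap.congr_fun h x
        simp only [LinearMap.dualMap_apply, LinearMap.add_apply, Module.End.one_apply, map_add,
          LinearMap.zero_apply] at h2
        simp only [LinearMap.neg_apply, LinearMap.dualMap_apply]
        linear_combination -h2
      rintro ⟨g, hg⟩
      obtain ⟨k, rfl⟩ := Subgroup.mem_zpowers_iff.1 hg
      show 𝒜.dualT ρ (c ^ k) φ = φ
      induction k using Int.induction_on with
      | zero => simp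
      | succ i ih =>
        rw [zpow_add_one, map_mul, Module.End.mul_apply, h1]
        exact ih (Subgroup.zpow_mem_zpowers c _)
      | pred i ih =>
        have h3 : 𝒜.dualT ρ c⁻¹ φ = φ := by rw [hcinv]; exact h1
        rw [zpow_sub_one, map_mul, Module.End.mul_apply, h3]
        exact ih (Subgroup.zpow_mem_zpowers c _)
  rw [hset, EA.FinalB_finrank_ker_dualMap]

theorem dualT_trivial_on (N : Subgroup 𝒜.G) (hω : N ≤ 𝒜.ω.ker) {X : Type}
    [AddCommGroup X] [Module (ZMod p) X] (ρ : Representation (ZMod p) 𝒜.G X)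
    (hρ : ∀ n ∈ N, ρ n = 1) : ∀ n ∈ N, 𝒜.dualT ρ n = 1 := by
  intro n hn
  have h1 : 𝒜.ω n = 1 := hω hn
  have h2 : ρ n⁻¹ = 1 := hρ _ (N.inv_mem hn)
  ext φ x
  rw [Representation.twist_apply_apply, h1, Representation.dual_apply, h2, Units.val_one, one_smul]
  rfl

theorem Fun_quot_trivial_on {G : Type} [Group G] (N U : Subgroup G) [hN : N.Normal] (hNU : N ≤ U)
    {X : Type} [AddCommGroup X] [Module (ZMod p) X] (ρ : Representation (ZMod p) G X)
    (hρ : ∀ n ∈ N, ρ n = 1) : ∀ n ∈ N, Fun ρ (G ⧸ U) n = 1 := by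
  intro n hn
  ext f w
  rw [Fun_apply, hρ n hn]
  induction w using QuotientGroup.induction_on with
  | H x =>
    have : n⁻¹ • (x : G ⧸ U) = (x : G ⧸ U) := by
      show ((n⁻¹ * x : G) : G ⧸ U) = x
      rw [QuotientGroup.eq]
      apply hNU
      have := hN.conj_mem n hn x⁻¹
      simpa [mul_assoc] using this
    rw [this]; rfl

variable (ax : 𝒜.Axioms) (hp2 : p ≠ 2) (N : Subgroup 𝒜.G) (hN : 𝒜.L.IsOpen N) (c : 𝒜.G)
  (hc : c * c = 1)

theorem eulerInvM_e_eq (hcω : 𝒜.ω c = -1) {X : Type} [AddCommGroup X] [Module (ZMod p) X]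
    [FiniteDimensional (ZMod p) X] (ρ : Representation (ZMod p) 𝒜.G X) :
    (EA.eulerInvM ax hp2 N hN c hc).e ρ = (EA.eulerInv ax hp2 N hN c hc).e (𝒜.dualT ρ) := by
  rw [EA.eulerInvM_e, EA.eulerInv_e, finrank_H0_dualT_invol c hc hcω,
    chi_dualT_eq_of_dualPair 𝒜 (DualPair.canon 𝒜.ω ρ)]

theorem baseM_of_base [N.Normal] [Finite (𝒜.G ⧸ N)] (hω : N ≤ 𝒜.ω.ker) (hcω : 𝒜.ω c = -1)
    (hb : (EA.eulerInv ax hp2 N hN c hc).Base) : (EA.eulerInvM ax hp2 N hN c hc).Base := by
  intro t m _ _ Y _ _ _ ρ hρ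
  haveI : Finite (𝒜.G ⧸ (N ⊔ Subgroup.zpowers t)) :=
    Finite.of_surjective (Quotient.map' id (fun a b h => by
      rw [QuotientGroup.leftRel_apply] at h ⊢
      exact (le_sup_left : N ≤ N ⊔ Subgroup.zpowers t) h))
      (by rintro ⟨x⟩; exact ⟨Quotient.mk'' x, rfl⟩)
  rw [eulerInvM_e_eq ax hp2 N hN c hc hcω]
  exact hb.eq_zero (dualT_trivial_on N hω _ (Fun_quot_trivial_on N _ le_sup_left ρ hρ))

end Fermat.Agent.S56.Euler

end
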