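/-
S56 / Euler / Main : **(EC1)** and `Target.euler` (assembly).
-/
import Fermat.Agent.S56.Euler.Arith
import Fermat.Agent.S56.Euler.Bridge

set_option autoImplicit false
set_option linter.style.haveILetI false

noncomputable section

namespace Fermat.Agent.S56.Euler

open Fermat.Agent.S55 Fermat.Agent.S55.Places ExtCitation Module

variable {p : ℕ} [Fact p.Prime]

/-- **(EC1)**. -/
theorem ec1 (hp2 : p ≠ 2) (N : Subgroup GQ) [hNn : N.Normal] (hN : Lall.IsOpen N)
    (hω : N ≤ (cycloChar p).ker) : EA.EC1 hp2 N := by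
  classical
  obtain ⟨L, _, _, ι, rfl⟩ := B.exists_model1 hN
  obtain ⟨T, -, hTfin, hTgood⟩ := G.exists_good p L ∅ Set.finite_empty
  choose l g hlg using fun v : G.Pl L => G.exists_isAt ι v
  refine ⟨hTfin.toFinset.image l, ?_⟩
  intro Sg hpS hNS ax hsub
  have hsetup : B.Setup p Sg ι := ⟨hpS, hNS, hω⟩
  have hgood : G.IsGood p L (B.SK Sg ι) := G.IsGood.mono p L hTgood (fun v hv =>
    ⟨l v, hsub (Finset.mem_image_of_mem l (hTfin.mem_toFinset.2 hv)), g v, hlg v⟩)
  have hcω : cycloChar p complexConjugation = -1 := EA.cycloChar_complexConjugation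
  have hcN : complexConjugation ∉ G.fixG ι := by
    intro hc
    have h1 : cycloChar p complexConjugation = 1 := hω hc
    rw [hcω] at h1
    have h2 : ((-1 : (ZMod p)ˣ) : ZMod p) = 1 := by rw [h1]; rfl
    rw [Units.val_neg, Units.val_one] at h2
    have h3 : (2 : ZMod p) = 0 := by linear_combination -h2
    have h4 : ((2 : ℕ) : ZMod p) = 0 := by exact_mod_cast h3
    rw [ZMod.natCast_eq_zero_iff] at h4
    exact hp2 ((Nat.prime_dvd_prime_iff_eq Fact.out Nat.prime_two).1 h4)
  haveI : Finite (GQ ⧸ G.fixG ι) := (LS Sg).finite_quotient hNS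
  have H := coreHyp hp2 Sg hpS ι hsetup hgood
  have hb0 := base0 ax hp2 (G.fixG ι) hNS hω complexConjugation complexConjugation_mul_self H
    (arith_transHyp hp2 Sg hpS) hcN
  exact baseM_of_base ax hp2 (G.fixG ι) hNS complexConjugation complexConjugation_mul_self hω hcω
    hb0.base

variable {k : Type} [Field k] [Finite k] [Algebra (ZMod p) k]

/-- **EULER** = `Target.euler` verbatim. -/
theorem euler (hp2 : p ≠ 2) (M : GQ →* M2 k) (hM : ResHyp p M) :
    ∃ Splus : Finset Nat.Primes, ∀ (Sg : Finset Nat.Primes) (hpS : pPrime p ∈ Sg),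
      Splus ⊆ Sg → UnramOutside M Sg →
      (arithDatum p Sg hpS).chi ((arithDatum p Sg hpS).dualT (ad0 p M)) ≤
        - (finrank (ZMod p) k : ℤ) := by
  have hopen : Lall.IsOpen M.ker := by
    obtain ⟨E, hE, h⟩ := hM.fin
    refine Lall.isOpen_mono (Lall_isOpen_iff.2 ⟨E, hE, le_rfl⟩) (fun σ hσ => ?_)
    exact h σ fun x hx => (IntermediateField.mem_fixingSubgroup_iff E σ).1 hσ x hx
  exact EA.euler_of_EC1 hp2 M hM (ec1 hp2 M.ker hopen (EA.ker_le_ker_cycloChar M hM))

end Fermat.Agent.S56.Euler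

end
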