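/-
S56 / Euler / KumConj : behaviour of the Kummer cochain under conjugation.
   `kum p (t⁻¹ β) v = ω(t)⁻¹ * kum p β (t v t⁻¹)`    if `t v t⁻¹` fixes `β ^ p`.

PROOF.  Apply the injective `iota p` (`iota_injective`), and `iota_kum` (S55/Arith/Defs.lean) twice:
    `iota (kum (t⁻¹β) v) = Gm v (t⁻¹ β) - t⁻¹ β = Gm t⁻¹ (Gm (t v t⁻¹) β - β) = Gm t⁻¹ (iota (kum β (t v t⁻¹))) = iota (mu p t⁻¹ (kum β (t v t⁻¹)))`
 (`iota_compat`, `mu_apply`, `map_inv`, `Gm` is a representation: `map_mul`; `t⁻¹ * (t * v * t⁻¹) = v * t⁻¹`).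
 Hypothesis of `iota_kum` for `(t⁻¹ β, v)`: `v ((t⁻¹ β)^p) = v t⁻¹ (β^p) = t⁻¹ (t v t⁻¹) (β^p) = t⁻¹ (β^p)`.
-/
import Fermat.Agent.S55.B.Kum

set_option autoImplicit false

noncomputable section

namespace Fermat.Agent.S56.Euler

open Fermat.Agent.S55 Fermat.Agent.S55.Places ExtCitation

variable (p : ℕ) [Fact p.Prime]

theorem kum_conj (β : Qbarˣ) (t v : GQ)
    (h : (t * v * t⁻¹) ((β : Qbar) ^ p) = (β : Qbar) ^ p) :
    kum p (Units.map ((t⁻¹ : GQ) : Qbar →* Qbar) β) v =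
      (((cycloChar p t)⁻¹ : (ZMod p)ˣ) : ZMod p) * kum p β (t * v * t⁻¹) := by
  apply iota_injective p
  set β' : Qbarˣ := Units.map ((t⁻¹ : GQ) : Qbar →* Qbar) β with hβ'
  have hβ'c : (β' : Qbar) = (t⁻¹ : GQ) (β : Qbar) := rfl
  have hβ'G : Additive.ofMul β' = Gm t⁻¹ (Additive.ofMul β) := rfl
  have h' : v ((β' : Qbar) ^ p) = (β' : Qbar) ^ p := by
    rw [hβ'c, ← map_pow]
    have h1 := congrArg (t⁻¹ : GQ) h
    rw [← AlgEquiv.mul_apply, ← mul_assoc, ← mul_assoc, inv_mul_cancel, one_mul,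
      AlgEquiv.mul_apply] at h1
    exact h1
  have e : (((cycloChar p t)⁻¹ : (ZMod p)ˣ) : ZMod p) * kum p β (t * v * t⁻¹)
      = mu p t⁻¹ (kum p β (t * v * t⁻¹)) := by
    rw [mu_apply, map_inv]
  rw [e, iota_compat, iota_kum p β' v h', iota_kum p β _ h, map_sub, hβ'G]
  congr 1
  rw [← Module.End.mul_apply, ← map_mul, ← Module.End.mul_apply, ← map_mul]
  congr 2
  group

end Fermat.Agent.S56.Euler

end
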